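/-
helper45 (P-ELL, WP-EC6).  Valuation subrings of a function field in one variable over an
algebraically closed field of constants, abstractly.

* `(P1)` the residue field of a nontrivial valuation subring containing the constants is the field
  of constants: `residue_bijective`, `resEquiv`, `resk`.
* `(P2)` pole lemma: a non-constant function has a pole: `exists_valuationSubring_notMem`.
* `(P3)` existence of centres: `exists_valuationSubring_center`.
* `(P4)` restriction to `k(x)`: `valuation_aeval_eq_pow_rootMultiplicity`,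
  `valuation_aeval_eq_pow_natDegree`, and the `RatFunc` forms.
-/
import Mathlib

set_option autoImplicit false
set_option linter.unusedSectionVars false

namespace Fermat.Agent.Lib.EC.Places

open Polynomial

variable {k K : Type*} [Field k] [Field K] [Algebra k K]

/-! ### Constants -/

/-- The constants inside a valuation subring containing them. -/
def constHom (A : ValuationSubring K) (hk : ∀ c : k, algebraMap k K c ∈ A) : k →+* A :=
  (algebraMap k K).codRestrict A.toSubring hk

@[simp] lemma coe_constHom (A : ValuationSubring K) (hk : ∀ c : k, algebraMap k K c ∈ A) (c : k) :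
    ((constHom A hk c : A) : K) = algebraMap k K c := rfl

/-- An element of `K` integral over the algebraically closed field `k` is a constant. -/
theorem mem_range_of_isIntegral [IsAlgClosed k] {f : K} (hf : IsIntegral k f) :
    f ∈ (algebraMap k K).range :=
  minpoly.mem_range_of_degree_eq_one k f
    (IsAlgClosed.degree_eq_one_of_irreducible k (minpoly.irreducible hf))

/-- A non-constant element is transcendental over the algebraically closed field `k`. -/
theorem transcendental_of_notMem_range [IsAlgClosed k] {f : K}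
    (hf : f ∉ (algebraMap k K).range) : Transcendental k f := fun h =>
  hf (mem_range_of_isIntegral h.isIntegral)

theorem notMem_range_of_transcendental {f : K} (hf : Transcendental k f) :
    f ∉ (algebraMap k K).range := by
  rintro ⟨c, rfl⟩
  exact hf (isAlgebraic_algebraMap c)

/-! ### (P2) The pole lemma -/

/-- The field of constants is integrally closed in `K`. -/
theorem isIntegrallyClosedIn_range [IsAlgClosed k] :
    IsIntegrallyClosedIn (algebraMap k K).range K := by
  rw [Subring.isIntegrallyClosedIn_iff]
  intro f hf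
  apply mem_range_of_isIntegral
  obtain ⟨p, hp, hpf⟩ := hf
  -- transport the monic polynomial to `k`
  let e : k ≃+* (algebraMap k K).range :=
    RingEquiv.ofBijective (algebraMap k K).rangeRestrict
      ⟨fun a b h => (algebraMap k K).injective (congrArg Subtype.val h),
        (algebraMap k K).rangeRestrict_surjective⟩
  refine ⟨p.map (e.symm : (algebraMap k K).range →+* k), hp.map _, ?_⟩
  rw [eval₂_map]
  have : (algebraMap k K).comp (e.symm : (algebraMap k K).range →+* k) =
      algebraMap (algebraMap k K).range K := by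
    ext y
    obtain ⟨c, rfl⟩ := e.surjective y
    rw [RingHom.comp_apply, RingHom.coe_coe, e.symm_apply_apply]
    rfl
  rw [this]
  exact hpf

/-- **Pole lemma** (P2): a non-constant element of `K` lies outside some valuation subring
containing the constants. -/
theorem exists_valuationSubring_notMem [IsAlgClosed k] {f : K}
    (hf : f ∉ (algebraMap k K).range) :
    ∃ A : ValuationSubring K, (∀ c : k, algebraMap k K c ∈ A) ∧ f ∉ A := by
  have := isIntegrallyClosedIn_range (k := k) (K := K)
  obtain ⟨A, hA, hfA⟩ := Subring.exists_le_valuationSubring_of_isIntegrallyClosedIn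
    (R := (algebraMap k K).range) hf
  exact ⟨A, fun c => hA ⟨c, rfl⟩, hfA⟩

/-- A valuation subring containing the constants, at which `f⁻¹` is a nonunit (a "pole" of `f`),
for a non-constant `f`. -/
theorem exists_valuationSubring_inv_mem_nonunits [IsAlgClosed k] {f : K}
    (hf : f ∉ (algebraMap k K).range) :
    ∃ A : ValuationSubring K, (∀ c : k, algebraMap k K c ∈ A) ∧ f⁻¹ ∈ A.nonunits := by
  obtain ⟨A, hA, hfA⟩ := exists_valuationSubring_notMem hf
  refine ⟨A, hA, ?_⟩
  rw [ValuationSubring.mem_nonunits_iff, map_inv₀]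
  have h1 : 1 < A.valuation f := by
    rw [← not_le, ValuationSubring.valuation_le_one_iff]
    exact hfA
  exact inv_lt_one_of_one_lt₀ h1

/-! ### (P3) Existence of centres -/

/-- **Centres** (P3): for an injective ring homomorphism `φ : R₀ →+* K` and a proper ideal `I`
of `R₀` there is a valuation subring of `K` containing `φ(R₀)` in which `φ(I)` consists of
nonunits. -/
theorem exists_valuationSubring_center {R₀ : Type*} [CommRing R₀] (φ : R₀ →+* K)
    (hφ : Function.Injective φ) (I : Ideal R₀) (hI : I ≠ ⊤) :
    ∃ A : ValuationSubring K, (∀ r, φ r ∈ A) ∧ ∀ r ∈ I, φ r ∈ A.nonunits := by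
  let e : R₀ ≃+* φ.range :=
    RingEquiv.ofBijective φ.rangeRestrict
      ⟨fun a b h => hφ (congrArg Subtype.val h), φ.rangeRestrict_surjective⟩
  have hI' : I.comap (e.symm : φ.range →+* R₀) ≠ ⊤ := by
    intro h
    apply hI
    rw [Ideal.eq_top_iff_one] at h ⊢
    simpa using h
  obtain ⟨A, hA, hAI⟩ := Ideal.image_subset_nonunits_valuationSubring _ hI'
  refine ⟨A, fun r => hA ⟨r, rfl⟩, fun r hr => ?_⟩
  apply hAI
  refine ⟨e r, ?_, rfl⟩
  rw [SetLike.mem_coe, Ideal.mem_comap]
  simpa using hr

/-- The `k`-algebra form of `exists_valuationSubring_center`: the valuation subring also contains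
the constants. -/
theorem exists_valuationSubring_center_algHom {R₀ : Type*} [CommRing R₀] [Algebra k R₀]
    (φ : R₀ →ₐ[k] K) (hφ : Function.Injective φ) (I : Ideal R₀) (hI : I ≠ ⊤) :
    ∃ A : ValuationSubring K, (∀ c : k, algebraMap k K c ∈ A) ∧ (∀ r, φ r ∈ A) ∧
      ∀ r ∈ I, φ r ∈ A.nonunits := by
  obtain ⟨A, hA, hAI⟩ := exists_valuationSubring_center (φ : R₀ →+* K) hφ I hI
  refine ⟨A, fun c => ?_, hA, hAI⟩
  have := hA (algebraMap k R₀ c)
  simpa using this

/-! ### (P1) The residue field -/

/-- `K/k` is a *function field in one variable* in the weak sense used here: `K` is algebraic over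
`k(f)` for every `f` transcendental over `k`. -/
def IsOneVar (k K : Type*) [Field k] [Field K] [Algebra k K] : Prop :=
  ∀ f : K, Transcendental k f → Algebra.IsAlgebraic (IntermediateField.adjoin k {f}) K

open scoped IntermediateField.algebraAdjoinAdjoin in
/-- If `K` is algebraic over `k(x)` for one `x`, then `K/k` is a function field in one variable
(exchange lemma). -/
theorem isOneVar_of_isAlgebraic_adjoin (x : K)
    (halg : Algebra.IsAlgebraic (IntermediateField.adjoin k {x}) K) : IsOneVar k K := by
  intro f hf
  have h1 : Algebra.IsAlgebraic (Algebra.adjoin k {x}) K :=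
    ⟨fun z => (IsFractionRing.isAlgebraic_iff (Algebra.adjoin k {x})
      (IntermediateField.adjoin k {x}) K).2 (halg.isAlgebraic z)⟩
  have h2 : Algebra.trdeg k K ≤ 1 := by
    have := Algebra.IsAlgebraic.trdeg_le_cardinalMk k ({x} : Set K)
    simpa using this
  have h3 : IsTranscendenceBasis k (fun _ : PUnit => f) :=
    AlgebraicIndependent.isTranscendenceBasis_of_trdeg_le_of_finite
      ((algebraicIndependent_unique_type_iff).2 hf) (by simpa using h2)
  have h4 := h3.isAlgebraic_field
  have h5 : Set.range (fun _ : PUnit => f) = {f} := by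
    ext z
    simp [eq_comm]
  rwa [h5] at h4

section AevalMem

variable (A : ValuationSubring K) (hk : ∀ c : k, algebraMap k K c ∈ A)

include hk in
/-- `aeval` of an element of `A` at a polynomial with constant coefficients, inside `A`. -/
lemma aeval_mem (a : A) (p : k[X]) : aeval (a : K) p ∈ A := by
  induction p using Polynomial.induction_on' with
  | add p q hp hq => rw [map_add]; exact A.add_mem _ _ hp hq
  | monomial n c =>
    rw [aeval_monomial]
    exact A.mul_mem _ _ (hk c) (pow_mem a.2 n)

/-- the residue of `aeval a p` -/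
lemma residue_aeval (a : A) (p : k[X]) :
    IsLocalRing.residue A ⟨aeval (a : K) p, aeval_mem A hk a p⟩ =
      eval₂ ((IsLocalRing.residue A).comp (constHom A hk)) (IsLocalRing.residue A a) p := by
  have h : (⟨aeval (a : K) p, aeval_mem A hk a p⟩ : A) = eval₂ (constHom A hk) a p := by
    apply Subtype.ext
    have := Polynomial.hom_eval₂ p (constHom A hk) A.subtype a
    change aeval (a : K) p = A.subtype (eval₂ (constHom A hk) a p)
    rw [this, aeval_def]
    rfl
  rw [h, Polynomial.hom_eval₂]

end AevalMem

section Residue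

variable [IsAlgClosed k] (H : IsOneVar k K) (A : ValuationSubring K)
  (hk : ∀ c : k, algebraMap k K c ∈ A) (hA : A ≠ ⊤)

include H hA in
/-- **(P1)** the constants map bijectively onto the residue field of a nontrivial valuation
subring containing them. -/
theorem residue_bijective :
    Function.Bijective ((IsLocalRing.residue A).comp (constHom A hk)) := by
  set φ : k →+* IsLocalRing.ResidueField A := (IsLocalRing.residue A).comp (constHom A hk) with hφ
  refine ⟨φ.injective, ?_⟩
  by_contra hsurj
  apply hA
  -- an element whose residue is not constant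
  obtain ⟨abar, habar⟩ : ∃ abar : IsLocalRing.ResidueField A, abar ∉ φ.range := by
    by_contra h
    push Not at h
    exact hsurj (fun y => h y)
  obtain ⟨a, rfl⟩ := IsLocalRing.residue_surjective abar
  let _ : Algebra k (IsLocalRing.ResidueField A) := φ.toAlgebra
  have htr : Transcendental k (IsLocalRing.residue A a) :=
    transcendental_of_notMem_range (k := k) (K := IsLocalRing.ResidueField A) habar
  -- every nonzero polynomial in `a` is a unit of `A`
  have hunit : ∀ p : k[X], p ≠ 0 → (aeval (a : K) p)⁻¹ ∈ A := by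
    intro p hp
    have hne : IsLocalRing.residue A ⟨aeval (a : K) p, aeval_mem A hk a p⟩ ≠ 0 := by
      rw [residue_aeval A hk]
      intro h0
      exact htr ⟨p, hp, h0⟩
    have hu : IsUnit (⟨aeval (a : K) p, aeval_mem A hk a p⟩ : A) := by
      by_contra hnu
      exact hne ((IsLocalRing.residue_eq_zero_iff _).2 ((IsLocalRing.mem_maximalIdeal _).2 hnu))
    obtain ⟨u, hu'⟩ := hu
    have hval : ((u⁻¹ : Aˣ) : A) * (⟨aeval (a : K) p, aeval_mem A hk a p⟩ : A) = 1 := by
      rw [← hu']; exact u.inv_mul
    have hK : (((u⁻¹ : Aˣ) : A) : K) * aeval (a : K) p = 1 := by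
      have := congrArg (fun z : A => (z : K)) hval
      simpa using this
    have : (aeval (a : K) p)⁻¹ = (((u⁻¹ : Aˣ) : A) : K) := by
      rw [eq_comm, ← mul_eq_one_iff_eq_inv₀]
      · exact hK
      · intro h0
        rw [h0, mul_zero] at hK
        exact zero_ne_one hK
    rw [this]
    exact Subtype.coe_prop _
  -- `a` is transcendental over `k`
  have htrK : Transcendental k (a : K) := by
    rintro ⟨p, hp, hpa⟩
    have hne : IsLocalRing.residue A ⟨aeval (a : K) p, aeval_mem A hk a p⟩ ≠ 0 := by
      rw [residue_aeval A hk]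
      intro h0
      exact htr ⟨p, hp, h0⟩
    apply hne
    have : (⟨aeval (a : K) p, aeval_mem A hk a p⟩ : A) = 0 := Subtype.ext hpa
    rw [this, map_zero]
  have halg := H (a : K) htrK
  -- `k(a) ⊆ A`
  have hsub : ∀ z ∈ IntermediateField.adjoin k {(a : K)}, z ∈ A := by
    intro z hz
    obtain ⟨r, s, rfl⟩ := (IntermediateField.mem_adjoin_simple_iff k z).1 hz
    by_cases hs : s = 0
    · simp [hs, A.zero_mem]
    · rw [div_eq_mul_inv]
      exact A.mul_mem _ _ (aeval_mem A hk a r) (hunit s hs)
  -- every element of `K` is integral over `A`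
  rw [eq_top_iff]
  intro z _
  have hz : IsIntegral (IntermediateField.adjoin k {(a : K)}) z :=
    (halg.isAlgebraic z).isIntegral
  obtain ⟨p, hpm, hpz⟩ := hz
  let ι : IntermediateField.adjoin k {(a : K)} →+* A :=
    (algebraMap (IntermediateField.adjoin k {(a : K)}) K).codRestrict A.toSubring
      (fun y => hsub y y.2)
  have hzA : IsIntegral A z := by
    refine ⟨p.map ι, hpm.map _, ?_⟩
    rw [eval₂_map]
    have : (algebraMap A K).comp ι = algebraMap (IntermediateField.adjoin k {(a : K)}) K := by
      ext y
      rfl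
    rw [this]
    exact hpz
  exact (Subring.isIntegrallyClosedIn_iff (S := A)).1 inferInstance hzA

/-- The field of constants is the residue field. -/
noncomputable def resEquiv : k ≃+* IsLocalRing.ResidueField A :=
  RingEquiv.ofBijective _ (residue_bijective H A hk hA)

@[simp] lemma resEquiv_apply (c : k) :
    resEquiv H A hk hA c = IsLocalRing.residue A (constHom A hk c) := rfl

/-- **(P1)** reduction modulo the maximal ideal, with values in the field of constants. -/
noncomputable def resk : A →+* k :=
  ((resEquiv H A hk hA).symm : IsLocalRing.ResidueField A →+* k).comp (IsLocalRing.residue A)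

lemma resEquiv_resk (a : A) : resEquiv H A hk hA (resk H A hk hA a) = IsLocalRing.residue A a := by
  simp [resk]

@[simp] lemma resk_constHom (c : k) : resk H A hk hA (constHom A hk c) = c := by
  apply (resEquiv H A hk hA).injective
  rw [resEquiv_resk, resEquiv_apply]

lemma resk_surjective : Function.Surjective (resk H A hk hA) := fun c =>
  ⟨constHom A hk c, resk_constHom H A hk hA c⟩

lemma resk_eq_zero_iff (a : A) : resk H A hk hA a = 0 ↔ (a : K) ∈ A.nonunits := by
  rw [← (resEquiv H A hk hA).map_eq_zero_iff (x := resk H A hk hA a), resEquiv_resk,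
    IsLocalRing.residue_eq_zero_iff, ValuationSubring.coe_mem_nonunits_iff]

lemma ker_resk : RingHom.ker (resk H A hk hA) = IsLocalRing.maximalIdeal A := by
  ext a
  rw [RingHom.mem_ker, resk_eq_zero_iff, ValuationSubring.coe_mem_nonunits_iff]

/-- Every element of `A` is congruent to its constant residue modulo the nonunits. -/
lemma sub_resk_mem_nonunits (a : A) :
    (a : K) - algebraMap k K (resk H A hk hA a) ∈ A.nonunits := by
  have h : resk H A hk hA (a - constHom A hk (resk H A hk hA a)) = 0 := by
    rw [map_sub, resk_constHom, sub_self]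
  have := (resk_eq_zero_iff H A hk hA _).1 h
  simpa using this

/-- Uniqueness of the constant residue. -/
lemma resk_eq_of_sub_mem_nonunits (a : A) (c : k)
    (h : (a : K) - algebraMap k K c ∈ A.nonunits) : resk H A hk hA a = c := by
  have h' : resk H A hk hA (a - constHom A hk c) = 0 := by
    rw [resk_eq_zero_iff]
    simpa using h
  rw [map_sub, resk_constHom, sub_eq_zero] at h'
  exact h'

end Residue

/-- A valuation subring with a nonzero nonunit is not the whole field. -/
lemma ne_top_of_mem_nonunits {A : ValuationSubring K} {z : K} (hz : z ∈ A.nonunits)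
    (hz0 : z ≠ 0) : A ≠ ⊤ := by
  rintro rfl
  rw [ValuationSubring.mem_nonunits_iff] at hz
  have h1 : (⊤ : ValuationSubring K).valuation z⁻¹ ≤ 1 :=
    (ValuationSubring.valuation_le_one_iff _ _).2 (ValuationSubring.mem_top _)
  rw [map_inv₀] at h1
  have h2 : (1 : (⊤ : ValuationSubring K).ValueGroup) < ((⊤ : ValuationSubring K).valuation z)⁻¹ :=
    (one_lt_inv₀ (by rw [zero_lt_iff, Valuation.ne_zero_iff]; exact hz0)).2 hz
  exact lt_irrefl _ (h2.trans_le h1)

/-- Every element of a nontrivial valuation subring over `k` has a centre `x₀ : k`. -/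
lemma exists_sub_mem_nonunits [IsAlgClosed k] (H : IsOneVar k K) (A : ValuationSubring K)
    (hk : ∀ c : k, algebraMap k K c ∈ A) (hA : A ≠ ⊤) {x : K} (hx : x ∈ A) :
    ∃ x₀ : k, x - algebraMap k K x₀ ∈ A.nonunits :=
  ⟨resk H A hk hA ⟨x, hx⟩, sub_resk_mem_nonunits H A hk hA ⟨x, hx⟩⟩

/-! ### (P4) Restriction to `k(x)` -/

section Restrict

variable (A : ValuationSubring K) (hk : ∀ c : k, algebraMap k K c ∈ A)

include hk in
/-- Nonzero constants are units of `A`. -/
lemma valuation_const {c : k} (hc : c ≠ 0) : A.valuation (algebraMap k K c) = 1 := by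
  have h1 : A.valuation (algebraMap k K c) ≤ 1 := (A.valuation_le_one_iff _).2 (hk c)
  have h2 : A.valuation (algebraMap k K c⁻¹) ≤ 1 := (A.valuation_le_one_iff _).2 (hk c⁻¹)
  have h3 : A.valuation (algebraMap k K c) * A.valuation (algebraMap k K c⁻¹) = 1 := by
    rw [← map_mul, ← map_mul, mul_inv_cancel₀ hc, map_one, map_one]
  apply le_antisymm h1
  by_contra hlt
  rw [not_le] at hlt
  have h4 : A.valuation (algebraMap k K c) * A.valuation (algebraMap k K c⁻¹) < 1 := by
    calc A.valuation (algebraMap k K c) * A.valuation (algebraMap k K c⁻¹)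
        ≤ A.valuation (algebraMap k K c) * 1 := by gcongr
      _ < 1 := by rwa [mul_one]
  rw [h3] at h4
  exact lt_irrefl _ h4

include hk in
/-- Polynomials in an element of `A` with constant coefficients have valuation `≤ 1`. -/
lemma valuation_aeval_le_one {x : K} (hx : x ∈ A) (p : k[X]) : A.valuation (aeval x p) ≤ 1 :=
  (A.valuation_le_one_iff _).2 (aeval_mem A hk ⟨x, hx⟩ p)

include hk in
/-- If `x ≡ x₀` modulo the nonunits and `q(x₀) ≠ 0`, then `q(x)` is a unit of `A`. -/
lemma valuation_aeval_eq_one {x : K} (hx : x ∈ A) {x₀ : k}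
    (hx₀ : x - algebraMap k K x₀ ∈ A.nonunits) {q : k[X]} (hq : q.eval x₀ ≠ 0) :
    A.valuation (aeval x q) = 1 := by
  have hdecomp : q = C (q.eval x₀) + (X - C x₀) * (q /ₘ (X - C x₀)) := by
    conv_lhs => rw [← modByMonic_add_div q (X - C x₀), modByMonic_X_sub_C_eq_C_eval]
  have h1 : aeval x q = algebraMap k K (q.eval x₀) +
      (x - algebraMap k K x₀) * aeval x (q /ₘ (X - C x₀)) := by
    conv_lhs => rw [hdecomp]
    simp [aeval_C]
  have h2 : A.valuation ((x - algebraMap k K x₀) * aeval x (q /ₘ (X - C x₀))) < 1 := by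
    rw [map_mul]
    have ha : A.valuation (x - algebraMap k K x₀) < 1 := (A.mem_nonunits_iff).1 hx₀
    have hb := valuation_aeval_le_one A hk hx (q /ₘ (X - C x₀))
    calc A.valuation (x - algebraMap k K x₀) * A.valuation (aeval x (q /ₘ (X - C x₀)))
        ≤ A.valuation (x - algebraMap k K x₀) * 1 := by gcongr
      _ < 1 := by rwa [mul_one]
  have h3 : A.valuation (algebraMap k K (q.eval x₀)) = 1 := valuation_const A hk hq
  rw [h1, Valuation.map_add_eq_of_lt_left _ (by rwa [h3]), h3]

include hk in
/-- **(P4), finite part, polynomial form**: if `x ∈ A` and `x - x₀` is a nonunit, then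
`v (p(x)) = v (x - x₀) ^ (multiplicity of x₀ as a root of p)`. -/
theorem valuation_aeval_eq_pow_rootMultiplicity {x : K} (hx : x ∈ A) {x₀ : k}
    (hx₀ : x - algebraMap k K x₀ ∈ A.nonunits) {p : k[X]} (hp : p ≠ 0) :
    A.valuation (aeval x p) = A.valuation (x - algebraMap k K x₀) ^ p.rootMultiplicity x₀ := by
  obtain ⟨q, hpq, hq⟩ := exists_eq_pow_rootMultiplicity_mul_and_not_dvd p hp x₀
  have hq' : q.eval x₀ ≠ 0 := fun h => hq (dvd_iff_isRoot.2 h)
  conv_lhs => rw [hpq]
  rw [map_mul, map_mul, map_pow, map_pow, valuation_aeval_eq_one A hk hx hx₀ hq', mul_one]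
  simp [aeval_C]

include hk in
/-- **(P4), infinite part, polynomial form**: if `x ∉ A` then `v (p(x)) = v x ^ deg p`. -/
theorem valuation_aeval_eq_pow_natDegree {x : K} (hx : x ∉ A) {p : k[X]} (hp : p ≠ 0) :
    A.valuation (aeval x p) = A.valuation x ^ p.natDegree := by
  have hx0 : x ≠ 0 := fun h => hx (h ▸ A.zero_mem)
  have hv : 1 < A.valuation x := by
    rw [← not_le, ValuationSubring.valuation_le_one_iff]; exact hx
  have hinv : x⁻¹ ∈ A.nonunits := by
    rw [ValuationSubring.mem_nonunits_iff, map_inv₀]
    exact inv_lt_one_of_one_lt₀ hv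
  have hinvA : x⁻¹ ∈ A := A.nonunits_subset hinv
  have hinv' : x⁻¹ - algebraMap k K 0 ∈ A.nonunits := by simpa using hinv
  have hrev : (p.reverse).eval 0 ≠ 0 := by
    rw [← coeff_zero_eq_eval_zero, coeff_zero_reverse]
    exact leadingCoeff_ne_zero.2 hp
  have h1 := valuation_aeval_eq_one A hk hinvA hinv' hrev
  let _ : Invertible x := invertibleOfNonzero hx0
  have h2 : aeval x p = aeval x⁻¹ p.reverse * x ^ p.natDegree := by
    have := eval₂_reverse_mul_pow (algebraMap k K) x p
    rw [invOf_eq_inv] at this
    rw [aeval_def, aeval_def, this]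
  rw [h2, map_mul, h1, one_mul, map_pow]

/-- An algebra homomorphism out of `RatFunc k` evaluated on a polynomial. -/
lemma algHom_algebraMap_polynomial (e : RatFunc k →ₐ[k] K) (p : k[X]) :
    e (algebraMap k[X] (RatFunc k) p) = aeval (e RatFunc.X) p := by
  have : (e.comp (IsScalarTower.toAlgHom k k[X] (RatFunc k))) = aeval (e RatFunc.X) := by
    apply Polynomial.algHom_ext
    simp [RatFunc.algebraMap_X]
  exact AlgHom.congr_fun this p

/-- An algebra homomorphism out of `RatFunc k` is evaluation at the image of `X`. -/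
lemma algHom_eq_div (e : RatFunc k →ₐ[k] K) (g : RatFunc k) :
    e g = aeval (e RatFunc.X) g.num / aeval (e RatFunc.X) g.denom := by
  conv_lhs => rw [← RatFunc.num_div_denom g]
  rw [map_div₀, algHom_algebraMap_polynomial, algHom_algebraMap_polynomial]

include hk in
/-- **(P4), finite part**: for an embedding `e : k(X) → K` with `x = e X ∈ A` and `x - x₀` a
nonunit, `v (g(x)) = v (x - x₀) ^ ord_{x₀} g`. -/
theorem valuation_ratFunc_eq_zpow (e : RatFunc k →ₐ[k] K) (hx : e RatFunc.X ∈ A) {x₀ : k}
    (hx₀ : e RatFunc.X - algebraMap k K x₀ ∈ A.nonunits) {g : RatFunc k} (hg : g ≠ 0) :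
    A.valuation (e g) = A.valuation (e RatFunc.X - algebraMap k K x₀) ^
      ((g.num.rootMultiplicity x₀ : ℤ) - (g.denom.rootMultiplicity x₀ : ℤ)) := by
  have hnum : g.num ≠ 0 := RatFunc.num_ne_zero hg
  have hden : g.denom ≠ 0 := RatFunc.denom_ne_zero g
  have hne : A.valuation (e RatFunc.X - algebraMap k K x₀) ≠ 0 := by
    rw [Valuation.ne_zero_iff]
    have h1 : e RatFunc.X - algebraMap k K x₀ = e (RatFunc.X - RatFunc.C x₀) := by
      rw [map_sub]
      congr 1
      rw [← RatFunc.algebraMap_eq_C, AlgHom.commutes]
    rw [h1]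
    intro h0
    have := (e : RatFunc k →+* K).injective (h0.trans (map_zero _).symm)
    have h2 : (RatFunc.X : RatFunc k) = RatFunc.C x₀ := sub_eq_zero.1 this
    have h3 := congrArg RatFunc.intDegree h2
    simp at h3
  rw [algHom_eq_div, map_div₀,
    valuation_aeval_eq_pow_rootMultiplicity A hk hx hx₀ hnum,
    valuation_aeval_eq_pow_rootMultiplicity A hk hx hx₀ hden, zpow_sub₀ hne, zpow_natCast,
    zpow_natCast]

include hk in
/-- **(P4), infinite part**: for an embedding `e : k(X) → K` with `x = e X ∉ A`,
`v (g(x)) = v x ^ (deg num - deg denom)`. -/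
theorem valuation_ratFunc_eq_zpow_intDegree (e : RatFunc k →ₐ[k] K) (hx : e RatFunc.X ∉ A)
    {g : RatFunc k} (hg : g ≠ 0) :
    A.valuation (e g) = A.valuation (e RatFunc.X) ^ g.intDegree := by
  have hnum : g.num ≠ 0 := RatFunc.num_ne_zero hg
  have hden : g.denom ≠ 0 := RatFunc.denom_ne_zero g
  have hne : A.valuation (e RatFunc.X) ≠ 0 := by
    rw [Valuation.ne_zero_iff]
    intro h0
    exact hx (h0 ▸ A.zero_mem)
  rw [algHom_eq_div, map_div₀, valuation_aeval_eq_pow_natDegree A hk hx hnum,
    valuation_aeval_eq_pow_natDegree A hk hx hden, RatFunc.intDegree, zpow_sub₀ hne, zpow_natCast,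
    zpow_natCast]

end Restrict

end Fermat.Agent.Lib.EC.Places
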