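import Fermat.Agent.Lib.EC.FunctionField.Subst
import Fermat.Agent.Lib.EC.FunctionField.Places
import Fermat.Agent.Lib.EC.ParallelogramOdd

/-!
# P-ELL WP-EC3 (part 5): the concrete data `(K, ι, σ, hfix, y, places, substitutions)`

The abstract layers (`ParallelogramOdd`, `Parallelogram`, `FrobCharEq/*`) work with fields
`k ⊆ K`, an embedding `ι : RatFunc k →ₐ[k] K` and an endomorphism `σ : K →ₐ[k] K` whose fixed
elements lie in the range of `ι`.  Here is the instance `K = FF W k`, `ι = ratEmb W k`,
`σ = involA W k`, together with: the generic point, `K/k` is a function field in one variable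
(`Places.IsOneVar`), places centred at every `k`-point, and substitution homomorphisms.
-/

set_option autoImplicit false

noncomputable section

namespace Fermat.Agent.Lib.EC.FunctionField

open WeierstrassCurve Polynomial

variable {F : Type*} [Field F] (W : WeierstrassCurve F) (k : Type*) [Field k] [Algebra F k]

/-- The involution as a `k`-algebra endomorphism of the function field. -/
def involA : FF W k →ₐ[k] FF W k := ((invol W k : FF W k ≃ₐ[k] FF W k) : FF W k →ₐ[k] FF W k)

theorem involA_apply (f : FF W k) : involA W k f = invol W k f := rfl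

theorem involA_ratEmb (r : RatFunc k) : involA W k (ratEmb W k r) = ratEmb W k r :=
  invol_ratEmb W k r

theorem involA_involA (f : FF W k) : involA W k (involA W k f) = f := invol_invol W k f

/-- The generic point in the form `(ι X, y)`. -/
theorem nonsingular_ratEmb_X :
    (W⁄(FF W k)).toAffine.Nonsingular (ratEmb W k RatFunc.X) (yF W k) := by
  rw [ratEmb_X]
  exact nonsingular_generic W k

theorem involA_yF :
    involA W k (yF W k) = (W⁄(FF W k)).toAffine.negY (ratEmb W k RatFunc.X) (yF W k) := by
  rw [involA_apply, invol_yF, ratEmb_X, negY_generic]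

/-- The fixed elements of the involution lie in `k(x)`. -/
theorem hfix (hW : ¬((2 : k) = 0 ∧ (W⁄k).a₁ = 0 ∧ (W⁄k).a₃ = 0)) :
    ∀ a : FF W k, involA W k a = a → a ∈ (ratEmb W k).range := fun a ha => by
  obtain ⟨r, hr⟩ := (invol_eq_self_iff W k hW a).mp ha
  exact ⟨r, hr⟩

/-! ### The two notions of odd points agree -/

section odd

variable [DecidableEq (FF W k)]

theorem involPt_eq_map (Q : PtL W k) :
    involPt W k Q = Affine.Point.map (W' := W.toAffine) (involA W k) Q := by
  rcases Q with _ | ⟨x, y, h⟩
  · rfl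
  · rfl

theorem mem_oddPoints_iff (Q : PtL W k) :
    Q ∈ oddPoints W k ↔ Q ∈ Parallelogram.oddPoints W (involA W k) := by
  rw [mem_oddPoints, Parallelogram.mem_oddPoints, involPt_eq_map]

theorem oddPoints_eq : oddPoints W k = Parallelogram.oddPoints W (involA W k) :=
  AddSubgroup.ext fun Q => mem_oddPoints_iff W k Q

theorem genericPoint_mem : genericPoint W k ∈ Parallelogram.oddPoints W (involA W k) :=
  (mem_oddPoints_iff W k _).mp (genericPoint_mem_oddPoints W k)

end odd

/-! ### `K / k` is a function field in one variable -/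

theorem polyEmb_eq_aeval (p : k[X]) : polyEmb W k p = aeval (xF W k) p := by
  rw [polyEmb_apply, polyC_eq_aeval, xF]
  exact (Polynomial.aeval_algebraMap_apply (FF W k) (xC W k) p).symm

theorem ratEmb_mem_adjoin (r : RatFunc k) :
    ratEmb W k r ∈ IntermediateField.adjoin k {xF W k} := by
  rw [IntermediateField.mem_adjoin_simple_iff]
  refine ⟨r.num, r.denom, ?_⟩
  conv_lhs => rw [← RatFunc.num_div_denom r]
  rw [map_div₀, ratEmb_algebraMap, ratEmb_algebraMap, polyEmb_eq_aeval, polyEmb_eq_aeval]

theorem isAlgebraic_yF :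
    IsAlgebraic (IntermediateField.adjoin k {xF W k}) (yF W k) := by
  -- `y` is a root of the monic quadratic `T² + (a₁ x + a₃) T - (x³ + a₂ x² + a₄ x + a₆)`
  have hx : xF W k ∈ IntermediateField.adjoin k {xF W k} :=
    IntermediateField.mem_adjoin_simple_self k (xF W k)
  set E := IntermediateField.adjoin k {xF W k} with hE
  let x' : E := ⟨xF W k, hx⟩
  let b : E := algebraMap k E (W⁄k).a₁ * x' + algebraMap k E (W⁄k).a₃
  let c : E := x' ^ 3 + algebraMap k E (W⁄k).a₂ * x' ^ 2 + algebraMap k E (W⁄k).a₄ * x'
    + algebraMap k E (W⁄k).a₆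
  refine ⟨X ^ 2 + C b * X - C c, ?_, ?_⟩
  · intro h0
    have := congrArg (fun p : E[X] => p.coeff 2) h0
    simp at this
  · have heq := (equation_iff_FF W k (xF W k) (yF W k)).mp (equation_generic W k)
    simp only [map_add, map_sub, map_mul, map_pow, aeval_X, aeval_C, b, c, x']
    have h1 : ∀ a : k, algebraMap E (FF W k) (algebraMap k E a) = algebraMap k (FF W k) a :=
      fun a => rfl
    have h2 : algebraMap E (FF W k) (⟨xF W k, hx⟩ : E) = xF W k := rfl
    simp only [h1, h2]
    linear_combination heq

theorem isAlgebraic_adjoin_xF :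
    Algebra.IsAlgebraic (IntermediateField.adjoin k {xF W k}) (FF W k) := by
  refine ⟨fun f => ?_⟩
  obtain ⟨P, Q, rfl⟩ := exists_ratEmb_add W k f
  have hP : IsAlgebraic (IntermediateField.adjoin k {xF W k}) (ratEmb W k P) := by
    have : ratEmb W k P = algebraMap (IntermediateField.adjoin k {xF W k}) (FF W k)
        ⟨ratEmb W k P, ratEmb_mem_adjoin W k P⟩ := rfl
    rw [this]
    exact isAlgebraic_algebraMap _
  have hQ : IsAlgebraic (IntermediateField.adjoin k {xF W k}) (ratEmb W k Q) := by
    have : ratEmb W k Q = algebraMap (IntermediateField.adjoin k {xF W k}) (FF W k)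
        ⟨ratEmb W k Q, ratEmb_mem_adjoin W k Q⟩ := rfl
    rw [this]
    exact isAlgebraic_algebraMap _
  exact hP.add (hQ.mul (isAlgebraic_yF W k))

/-- The function field of `W⁄k` is a function field in one variable over `k`. -/
theorem isOneVar : Places.IsOneVar k (FF W k) :=
  Places.isOneVar_of_isAlgebraic_adjoin (xF W k) (isAlgebraic_adjoin_xF W k)

/-- `x` is transcendental over `k`. -/
theorem transcendental_xF : Transcendental k (xF W k) := by
  rw [← ratEmb_X]
  exact transcendental_ratEmb W k RatFunc.transcendental_X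

/-! ### Places centred at `k`-points -/

/-- Evaluation at a `k`-point of the curve, on the coordinate ring. -/
def evalCR {x₀ y₀ : k} (h : (W⁄k).toAffine.Equation x₀ y₀) : CR W k →ₐ[k] k :=
  liftCR W k x₀ y₀ (by
    have := (Affine.equation_iff x₀ y₀).mp h
    simpa using this)

theorem evalCR_xC {x₀ y₀ : k} (h : (W⁄k).toAffine.Equation x₀ y₀) :
    evalCR W k h (xC W k) = x₀ := liftCR_xC W k _ _ _

theorem evalCR_yC {x₀ y₀ : k} (h : (W⁄k).toAffine.Equation x₀ y₀) :
    evalCR W k h (yC W k) = y₀ := liftCR_yC W k _ _ _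

/-- For every `k`-point `(x₀, y₀)` of the curve there is a place of the function field (a
valuation subring containing `k`, not the whole field) at which `x - x₀` and `y - y₀` are
nonunits. -/
theorem exists_place_center {x₀ y₀ : k} (h : (W⁄k).toAffine.Equation x₀ y₀) :
    ∃ A : ValuationSubring (FF W k), (∀ c : k, algebraMap k (FF W k) c ∈ A) ∧ A ≠ ⊤ ∧
      xF W k ∈ A ∧ yF W k ∈ A ∧
      xF W k - algebraMap k (FF W k) x₀ ∈ A.nonunits ∧
      yF W k - algebraMap k (FF W k) y₀ ∈ A.nonunits := by
  let I : Ideal (CR W k) := RingHom.ker (evalCR W k h : CR W k →+* k)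
  have hI : I ≠ ⊤ := RingHom.ker_ne_top _
  obtain ⟨A, hk, hA, hAI⟩ := Places.exists_valuationSubring_center_algHom
    (IsScalarTower.toAlgHom k (CR W k) (FF W k)) (algebraMap_CR_FF_injective W k) I hI
  have hx : xC W k - algebraMap k (CR W k) x₀ ∈ I := by
    rw [RingHom.mem_ker]
    simp [evalCR_xC]
  have hy : yC W k - algebraMap k (CR W k) y₀ ∈ I := by
    rw [RingHom.mem_ker]
    simp [evalCR_yC]
  have hx' : xF W k - algebraMap k (FF W k) x₀ ∈ A.nonunits := by
    have := hAI _ hx
    simpa [xF, ← IsScalarTower.algebraMap_apply] using this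
  have hy' : yF W k - algebraMap k (FF W k) y₀ ∈ A.nonunits := by
    have := hAI _ hy
    simpa [yF, ← IsScalarTower.algebraMap_apply] using this
  refine ⟨A, hk, ?_, hA (xC W k), hA (yC W k), hx', hy'⟩
  apply Places.ne_top_of_mem_nonunits hx'
  intro h0
  have hxk : xF W k = algebraMap k (FF W k) x₀ := sub_eq_zero.mp h0
  exact transcendental_xF W k (hxk ▸ isAlgebraic_algebraMap x₀)

/-! ### Substitution homomorphisms in the abstract form -/

/-- For every point `(x', y')` of the curve over the function field with `x'` transcendental over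
`k` there is a `k`-algebra endomorphism of the function field with `ι X ↦ x'`, `y ↦ y'`. -/
theorem exists_substHom {x' y' : FF W k} (h : (W⁄(FF W k)).toAffine.Equation x' y')
    (hx' : Transcendental k x') :
    ∃ s : FF W k →ₐ[k] FF W k, s (ratEmb W k RatFunc.X) = x' ∧ s (yF W k) = y' :=
  ⟨subst W k h hx', by rw [ratEmb_X, subst_xF], subst_yF W k h hx'⟩

end Fermat.Agent.Lib.EC.FunctionField
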