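import Mathlib

/-!
helper4 (P-ELL WP-EC7).  Local valuation computations on a Weierstrass curve over a field `K` with a
valuation subring `A`: if `P = (x, y)` is congruent to `P₀ = (x₀, y₀)` modulo the maximal ideal of
`A` (and the reduction of `P₀` is nonsingular), then `D = P - P₀` is "near infinity" and the pole
order of `x(D)` is computed from `v (x - x₀)`:

* `valuation_addX_of_unit` / `valuation_x_sub` : if `y₀ - negY x₀ y₀` is a unit of `A`
  (i.e. `2 P₀ ≠ 0` in the residue field), then `v (x(D)) = (v (x - x₀))⁻¹ ^ 2`;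
* `valuation_addX_of_two_torsion` / `valuation_x_sub_two_torsion` : if `y₀ = negY x₀ y₀` and
  `W_X(x₀, y₀)` is a unit, then `v (x(D)) = (v (x - x₀))⁻¹` (and `v (y - y₀) ^ 2 = v (x - x₀)`);
* `valuation_y_sq_of_one_lt` : for any point `(X, Y)` with `1 < v X`: `v Y ^ 2 = v X ^ 3`, so
  `Y ∉ A` and `z = -X / Y` satisfies `v z ^ 2 = (v X)⁻¹ < 1`.
-/

set_option autoImplicit false

open WeierstrassCurve WeierstrassCurve.Affine

namespace Fermat.Agent.Lib.EC.LocalOrder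

variable {K : Type*} [Field K] (A : ValuationSubring K)

/-! ### Valuation helpers -/

section Helpers

variable {Γ : Type*} [LinearOrderedCommGroupWithZero Γ] (v : Valuation K Γ)

theorem map_add_eq_left {a b : K} (h : v b < v a) : v (a + b) = v a :=
  Valuation.map_add_eq_of_lt_left v h

theorem map_sub_eq_left {a b : K} (h : v b < v a) : v (a - b) = v a := by
  rw [sub_eq_add_neg]
  exact Valuation.map_add_eq_of_lt_left v (by rwa [Valuation.map_neg])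

theorem map_add_lt' {a b : K} {g : Γ} (ha : v a < g) (hb : v b < g) : v (a + b) < g :=
  Valuation.map_add_lt v ha hb

theorem map_sub_lt' {a b : K} {g : Γ} (ha : v a < g) (hb : v b < g) : v (a - b) < g :=
  Valuation.map_sub_lt v ha hb

theorem map_add_le' {a b : K} {g : Γ} (ha : v a ≤ g) (hb : v b ≤ g) : v (a + b) ≤ g :=
  Valuation.map_add_le v ha hb

theorem map_sub_le' {a b : K} {g : Γ} (ha : v a ≤ g) (hb : v b ≤ g) : v (a - b) ≤ g :=
  Valuation.map_sub_le v ha hb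

theorem lt_sq_of_one_lt {g : Γ} (hg : 1 < g) : g < g ^ 2 := by
  have h0 : 0 < g := lt_trans zero_lt_one hg
  rw [pow_two]
  exact lt_mul_of_one_lt_right h0 hg

theorem one_lt_sq_of_one_lt {g : Γ} (hg : 1 < g) : 1 < g ^ 2 := lt_trans hg (lt_sq_of_one_lt hg)

theorem sq_lt_cube_of_one_lt {g : Γ} (hg : 1 < g) : g ^ 2 < g ^ 3 := by
  have h0 : 0 < g ^ 2 := pow_pos (lt_trans zero_lt_one hg) 2
  rw [pow_succ g 2]
  exact lt_mul_of_one_lt_right h0 hg

theorem map_three_mul_le {a : K} {g : Γ} (ha : v a ≤ g) : v (3 * a) ≤ g := by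
  have : (3 : K) * a = a + a + a := by ring
  rw [this]
  exact map_add_le' v (map_add_le' v ha ha) ha

theorem map_two_mul_le {a : K} {g : Γ} (ha : v a ≤ g) : v (2 * a) ≤ g := by
  have : (2 : K) * a = a + a := by ring
  rw [this]
  exact map_add_le' v ha ha

end Helpers

/-! ### The `x`-coordinate of `P - P₀` -/

section Main

variable {Γ : Type*} [LinearOrderedCommGroupWithZero Γ] (v : Valuation K Γ) (W : Affine K)

/-- Common final step: if the slope `ℓ` has `1 < v ℓ` then `v (addX x x₀ ℓ) = v ℓ ^ 2`. -/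
theorem valuation_addX_of_one_lt {x x₀ ℓ : K} (ha₁ : v W.a₁ ≤ 1) (ha₂ : v W.a₂ ≤ 1)
    (hx : v x ≤ 1) (hx₀ : v x₀ ≤ 1) (hℓ : 1 < v ℓ) : v (W.addX x x₀ ℓ) = v ℓ ^ 2 := by
  have h2 : 1 < v ℓ ^ 2 := one_lt_sq_of_one_lt hℓ
  have e : W.addX x x₀ ℓ = ℓ ^ 2 + (W.a₁ * ℓ - W.a₂ - x - x₀) := by
    simp only [addX]; ring
  rw [e, map_add_eq_left, map_pow]
  rw [map_pow]
  refine map_sub_lt' v (map_sub_lt' v (map_sub_lt' v ?_ ?_) ?_) ?_
  · rw [map_mul]
    calc v W.a₁ * v ℓ ≤ 1 * v ℓ := mul_le_mul_left ha₁ _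
      _ = v ℓ := one_mul _
      _ < v ℓ ^ 2 := lt_sq_of_one_lt hℓ
  · exact lt_of_le_of_lt ha₂ h2
  · exact lt_of_le_of_lt hx h2
  · exact lt_of_le_of_lt hx₀ h2

/-- **Case `2 P₀ ≠ 0`.**  If `y₀ - negY x₀ y₀` is a unit, `v (x(P - P₀)) = (v (x - x₀))⁻¹ ^ 2`. -/
theorem valuation_addX_of_unit {x y x₀ y₀ : K} (ha₁ : v W.a₁ ≤ 1) (ha₂ : v W.a₂ ≤ 1)
    (hx₀ : v x₀ ≤ 1) (hξ : v (x - x₀) < 1) (hη : v (y - y₀) < 1) (hne : x ≠ x₀)
    (hunit : v (y₀ - W.negY x₀ y₀) = 1) :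
    v (W.addX x x₀ ((y - W.negY x₀ y₀) / (x - x₀))) = (v (x - x₀))⁻¹ ^ 2 := by
  have hξ0 : v (x - x₀) ≠ 0 := (Valuation.ne_zero_iff v).mpr (sub_ne_zero.mpr hne)
  have hξpos : 0 < v (x - x₀) := zero_lt_iff.mpr hξ0
  have h1 : v (y - W.negY x₀ y₀) = 1 := by
    have : y - W.negY x₀ y₀ = (y₀ - W.negY x₀ y₀) + (y - y₀) := by ring
    rw [this, map_add_eq_left v (by rw [hunit]; exact hη), hunit]
  have hℓ : v ((y - W.negY x₀ y₀) / (x - x₀)) = (v (x - x₀))⁻¹ := by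
    rw [map_div₀, h1, one_div]
  have hx : v x ≤ 1 := by
    have : x = x₀ + (x - x₀) := by ring
    rw [this]
    exact map_add_le' v hx₀ hξ.le
  rw [valuation_addX_of_one_lt v W ha₁ ha₂ hx hx₀ (by rw [hℓ]; exact (one_lt_inv₀ hξpos).mpr hξ), hℓ]

/-- **Case `2 P₀ = 0`.**  If `y₀ = negY x₀ y₀` and `W_X(x₀, y₀)` is a unit, then
`v (y - y₀) ^ 2 = v (x - x₀)` and `v (x(P - P₀)) = (v (x - x₀))⁻¹`. -/
theorem valuation_addX_of_two_torsion {x y x₀ y₀ : K} (ha₁ : v W.a₁ ≤ 1) (ha₂ : v W.a₂ ≤ 1)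
    (hx₀ : v x₀ ≤ 1) (h : W.Equation x y) (h₀ : W.Equation x₀ y₀)
    (hξ : v (x - x₀) < 1) (hη : v (y - y₀) < 1) (hne : x ≠ x₀)
    (htors : y₀ = W.negY x₀ y₀)
    (hWX : v (W.a₁ * y₀ - (3 * x₀ ^ 2 + 2 * W.a₂ * x₀ + W.a₄)) = 1) :
    v (y - y₀) ^ 2 = v (x - x₀) ∧
      v (W.addX x x₀ ((y - W.negY x₀ y₀) / (x - x₀))) = (v (x - x₀))⁻¹ := by
  have hξ0 : v (x - x₀) ≠ 0 := (Valuation.ne_zero_iff v).mpr (sub_ne_zero.mpr hne)
  have hξpos : 0 < v (x - x₀) := zero_lt_iff.mpr hξ0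
  rw [equation_iff] at h h₀
  have ht : 2 * y₀ + W.a₁ * x₀ + W.a₃ = 0 := by
    have := htors
    rw [negY] at this
    linear_combination this
  -- the key identity
  have key : (y - y₀) ^ 2 + W.a₁ * (x - x₀) * (y - y₀) =
      (x - x₀) * (-(W.a₁ * y₀ - (3 * x₀ ^ 2 + 2 * W.a₂ * x₀ + W.a₄)) +
        ((3 * x₀ + W.a₂) * (x - x₀) + (x - x₀) ^ 2)) := by
    linear_combination h - h₀ - (y - y₀) * ht
  have hu : v (-(W.a₁ * y₀ - (3 * x₀ ^ 2 + 2 * W.a₂ * x₀ + W.a₄)) +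
        ((3 * x₀ + W.a₂) * (x - x₀) + (x - x₀) ^ 2)) = 1 := by
    rw [map_add_eq_left, Valuation.map_neg, hWX]
    rw [Valuation.map_neg, hWX]
    refine map_add_lt' v ?_ ?_
    · rw [map_mul]
      have : v (3 * x₀ + W.a₂) ≤ 1 := map_add_le' v (map_three_mul_le v hx₀) ha₂
      calc v (3 * x₀ + W.a₂) * v (x - x₀) ≤ 1 * v (x - x₀) := mul_le_mul_left this _
        _ = v (x - x₀) := one_mul _
        _ < 1 := hξ
    · rw [map_pow]
      exact pow_lt_one₀ zero_le hξ two_ne_zero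
  have hsum : v ((y - y₀) ^ 2 + W.a₁ * (x - x₀) * (y - y₀)) = v (x - x₀) := by
    rw [key, map_mul, hu, mul_one]
  -- compare `e = v (y - y₀)` and `f = v (x - x₀)`
  have hlt : v (x - x₀) < v (y - y₀) := by
    by_contra hle
    rw [not_lt] at hle
    have h1 : v ((y - y₀) ^ 2) < v (x - x₀) := by
      rw [map_pow, pow_two]
      calc v (y - y₀) * v (y - y₀) ≤ v (y - y₀) * v (x - x₀) := mul_le_mul_right hle _
        _ < 1 * v (x - x₀) := mul_lt_mul_of_pos_right hη hξpos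
        _ = v (x - x₀) := one_mul _
    have h2 : v (W.a₁ * (x - x₀) * (y - y₀)) < v (x - x₀) := by
      rw [map_mul, map_mul]
      calc v W.a₁ * v (x - x₀) * v (y - y₀) ≤ 1 * v (x - x₀) * v (y - y₀) := by
            gcongr
        _ = v (x - x₀) * v (y - y₀) := by rw [one_mul]
        _ < v (x - x₀) * 1 := mul_lt_mul_of_pos_left hη hξpos
        _ = v (x - x₀) := mul_one _
    exact absurd hsum (ne_of_lt (map_add_lt' v h1 h2))
  have hηpos : 0 < v (y - y₀) := lt_trans hξpos hlt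
  have hsq : v (y - y₀) ^ 2 = v (x - x₀) := by
    rw [← hsum, map_add_eq_left, map_pow]
    rw [map_mul, map_mul, map_pow, pow_two]
    calc v W.a₁ * v (x - x₀) * v (y - y₀) ≤ 1 * v (x - x₀) * v (y - y₀) := by
          gcongr
      _ = v (x - x₀) * v (y - y₀) := by rw [one_mul]
      _ < v (y - y₀) * v (y - y₀) := mul_lt_mul_of_pos_right hlt hηpos
  refine ⟨hsq, ?_⟩
  have hℓ : v ((y - W.negY x₀ y₀) / (x - x₀)) = (v (y - y₀))⁻¹ := by
    rw [← htors, map_div₀, ← hsq, pow_two, div_mul_cancel_left₀ hηpos.ne']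
  have hx : v x ≤ 1 := by
    have : x = x₀ + (x - x₀) := by ring
    rw [this]
    exact map_add_le' v hx₀ hξ.le
  rw [valuation_addX_of_one_lt v W ha₁ ha₂ hx hx₀ (by rw [hℓ]; exact (one_lt_inv₀ hηpos).mpr hη), hℓ,
    inv_pow, hsq]

/-! ### Points near infinity -/

/-- For a point `(X, Y)` of `W` (coefficients in the valuation ring) with `1 < v X`:
`v Y ^ 2 = v X ^ 3`. -/
theorem valuation_y_sq_of_one_lt {X Y : K} (ha₁ : v W.a₁ ≤ 1) (ha₂ : v W.a₂ ≤ 1)
    (ha₃ : v W.a₃ ≤ 1) (ha₄ : v W.a₄ ≤ 1) (ha₆ : v W.a₆ ≤ 1) (h : W.Equation X Y)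
    (hX : 1 < v X) : v Y ^ 2 = v X ^ 3 := by
  rw [equation_iff] at h
  have hXpos : 0 < v X := lt_trans zero_lt_one hX
  have h23 : v X ^ 2 < v X ^ 3 := sq_lt_cube_of_one_lt hX
  have h12 : v X < v X ^ 2 := lt_sq_of_one_lt hX
  -- the right-hand side has valuation `v X ^ 3`
  have hR : v (X ^ 3 + W.a₂ * X ^ 2 + W.a₄ * X + W.a₆) = v X ^ 3 := by
    have e : X ^ 3 + W.a₂ * X ^ 2 + W.a₄ * X + W.a₆ = X ^ 3 + (W.a₂ * X ^ 2 + W.a₄ * X + W.a₆) := by
      ring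
    rw [e, map_add_eq_left, map_pow]
    rw [map_pow]
    refine map_add_lt' v (map_add_lt' v ?_ ?_) ?_
    · rw [map_mul, map_pow]
      calc v W.a₂ * v X ^ 2 ≤ 1 * v X ^ 2 := mul_le_mul_left ha₂ _
        _ = v X ^ 2 := one_mul _
        _ < v X ^ 3 := h23
    · rw [map_mul]
      calc v W.a₄ * v X ≤ 1 * v X := mul_le_mul_left ha₄ _
        _ = v X := one_mul _
        _ < v X ^ 3 := lt_trans h12 h23
    · exact lt_of_le_of_lt ha₆ (lt_trans hX (lt_trans h12 h23))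
  have hL : v (Y ^ 2 + W.a₁ * X * Y + W.a₃ * Y) = v X ^ 3 := by rw [h, hR]
  -- `v X < v Y`
  have hlt : v X < v Y := by
    by_contra hle
    rw [not_lt] at hle
    have h1 : v (Y ^ 2) ≤ v X ^ 2 := by
      rw [map_pow]; exact pow_le_pow_left₀ zero_le hle 2
    have h2 : v (W.a₁ * X * Y) ≤ v X ^ 2 := by
      rw [map_mul, map_mul, pow_two]
      calc v W.a₁ * v X * v Y ≤ 1 * v X * v X := by gcongr
        _ = v X * v X := by rw [one_mul]
    have h3 : v (W.a₃ * Y) ≤ v X ^ 2 := by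
      rw [map_mul]
      calc v W.a₃ * v Y ≤ 1 * v X := by gcongr
        _ = v X := one_mul _
        _ ≤ v X ^ 2 := h12.le
    have := map_add_le' v (map_add_le' v h1 h2) h3
    rw [hL] at this
    exact absurd this (not_le.mpr h23)
  have hY : 1 < v Y := lt_trans hX hlt
  have hYpos : 0 < v Y := lt_trans zero_lt_one hY
  rw [← hL]
  have e : Y ^ 2 + W.a₁ * X * Y + W.a₃ * Y = Y ^ 2 + (W.a₁ * X * Y + W.a₃ * Y) := by ring
  rw [e, map_add_eq_left, map_pow]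
  rw [map_pow]
  refine map_add_lt' v ?_ ?_
  · rw [map_mul, map_mul, pow_two]
    calc v W.a₁ * v X * v Y ≤ 1 * v X * v Y := by gcongr
      _ = v X * v Y := by rw [one_mul]
      _ < v Y * v Y := mul_lt_mul_of_pos_right hlt hYpos
  · rw [map_mul]
    calc v W.a₃ * v Y ≤ 1 * v Y := mul_le_mul_left ha₃ _
      _ = v Y := one_mul _
      _ < v Y ^ 2 := lt_sq_of_one_lt hY

/-- Under the hypotheses of `valuation_y_sq_of_one_lt`, `v X < v Y`; in particular `1 < v Y`. -/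
theorem valuation_x_lt_valuation_y {X Y : K} (ha₁ : v W.a₁ ≤ 1) (ha₂ : v W.a₂ ≤ 1)
    (ha₃ : v W.a₃ ≤ 1) (ha₄ : v W.a₄ ≤ 1) (ha₆ : v W.a₆ ≤ 1) (h : W.Equation X Y)
    (hX : 1 < v X) : v X < v Y := by
  have hsq := valuation_y_sq_of_one_lt v W ha₁ ha₂ ha₃ ha₄ ha₆ h hX
  by_contra hle
  rw [not_lt] at hle
  have : v Y ^ 2 ≤ v X ^ 2 := pow_le_pow_left₀ zero_le hle 2
  rw [hsq] at this
  exact absurd this (not_le.mpr (sq_lt_cube_of_one_lt hX))

/-- The local parameter `z = -X / Y` at infinity: `v z ^ 2 = (v X)⁻¹`, so `v z < 1`. -/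
theorem valuation_z_sq {X Y : K} (ha₁ : v W.a₁ ≤ 1) (ha₂ : v W.a₂ ≤ 1)
    (ha₃ : v W.a₃ ≤ 1) (ha₄ : v W.a₄ ≤ 1) (ha₆ : v W.a₆ ≤ 1) (h : W.Equation X Y)
    (hX : 1 < v X) : v (-X / Y) ^ 2 = (v X)⁻¹ ∧ v (-X / Y) < 1 := by
  have hsq := valuation_y_sq_of_one_lt v W ha₁ ha₂ ha₃ ha₄ ha₆ h hX
  have hlt := valuation_x_lt_valuation_y v W ha₁ ha₂ ha₃ ha₄ ha₆ h hX
  have hXpos : 0 < v X := lt_trans zero_lt_one hX
  have hYpos : 0 < v Y := lt_trans hXpos hlt
  constructor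
  · rw [map_div₀, Valuation.map_neg, div_pow, hsq, pow_succ (v X) 2, div_mul_cancel_left₀
      (pow_pos hXpos 2).ne']
  · rw [map_div₀, Valuation.map_neg]
    exact (div_lt_one₀ hYpos).mpr hlt

end Main

/-! ### Statements for points -/

section Points

variable {Γ : Type*} [LinearOrderedCommGroupWithZero Γ] (v : Valuation K Γ) (W : Affine K)

/-- The `x`-coordinate of an affine point, with junk value `0` at infinity. -/
def xCoord : W.Point → K
  | .zero => 0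
  | .some x _ _ => x

/-- The `y`-coordinate of an affine point, with junk value `0` at infinity. -/
def yCoord : W.Point → K
  | .zero => 0
  | .some _ y _ => y

@[simp] theorem xCoord_some {x y : K} (h : W.Nonsingular x y) : xCoord W (Point.some x y h) = x := rfl
@[simp] theorem yCoord_some {x y : K} (h : W.Nonsingular x y) : yCoord W (Point.some x y h) = y := rfl
@[simp] theorem xCoord_zero : xCoord W (0 : W.Point) = 0 := rfl
@[simp] theorem yCoord_zero : yCoord W (0 : W.Point) = 0 := rfl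

/-- A point `D ≠ 0` with `1 < v (x D)` has `v (x D) < v (y D)`, `v (y D) ^ 2 = v (x D) ^ 3`, and
the parameter `z = -x/y` satisfies `v z ^ 2 = (v (x D))⁻¹`, `v z < 1`. -/
theorem near_infinity (D : W.Point) (ha₁ : v W.a₁ ≤ 1) (ha₂ : v W.a₂ ≤ 1)
    (ha₃ : v W.a₃ ≤ 1) (ha₄ : v W.a₄ ≤ 1) (ha₆ : v W.a₆ ≤ 1) (hX : 1 < v (xCoord W D)) :
    v (xCoord W D) < v (yCoord W D) ∧ v (yCoord W D) ^ 2 = v (xCoord W D) ^ 3 ∧
      v (-xCoord W D / yCoord W D) ^ 2 = (v (xCoord W D))⁻¹ ∧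
      v (-xCoord W D / yCoord W D) < 1 := by
  rcases D with _ | ⟨X, Y, hD⟩
  · exfalso
    have : v (xCoord W (0 : W.Point)) = 0 := by simp
    change 1 < v (xCoord W (0 : W.Point)) at hX
    rw [this] at hX
    exact absurd hX (not_lt.mpr zero_le_one)
  · have hz := valuation_z_sq v W ha₁ ha₂ ha₃ ha₄ ha₆ hD.1 hX
    exact ⟨valuation_x_lt_valuation_y v W ha₁ ha₂ ha₃ ha₄ ha₆ hD.1 hX,
      valuation_y_sq_of_one_lt v W ha₁ ha₂ ha₃ ha₄ ha₆ hD.1 hX, hz.1, hz.2⟩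

variable [DecidableEq K]

/-- `P - P₀` for `x(P) ≠ x(P₀)` in coordinates. -/
theorem some_sub_some {x y x₀ y₀ : K} (h : W.Nonsingular x y) (h₀ : W.Nonsingular x₀ y₀)
    (hne : x ≠ x₀) :
    ∃ hD : W.Nonsingular (W.addX x x₀ ((y - W.negY x₀ y₀) / (x - x₀)))
        (W.addY x x₀ y ((y - W.negY x₀ y₀) / (x - x₀))),
      Point.some x y h - Point.some x₀ y₀ h₀ = Point.some _ _ hD := by
  have hs : W.slope x x₀ y (W.negY x₀ y₀) = (y - W.negY x₀ y₀) / (x - x₀) := slope_of_X_ne hne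
  have key : Point.some x y h - Point.some x₀ y₀ h₀ =
      Point.some _ _ (nonsingular_add h ((nonsingular_neg ..).mpr h₀) fun hxy => hne hxy.left) := by
    rw [sub_eq_add_neg, Point.neg_some, Point.add_of_X_ne hne]
  rw [← hs]
  exact ⟨_, key⟩

/-- **WP-EC7, case `2 P₀ ≠ 0`.** -/
theorem valuation_x_sub {x y x₀ y₀ : K} (h : W.Nonsingular x y) (h₀ : W.Nonsingular x₀ y₀)
    (ha₁ : v W.a₁ ≤ 1) (ha₂ : v W.a₂ ≤ 1) (hx₀ : v x₀ ≤ 1)
    (hξ : v (x - x₀) < 1) (hη : v (y - y₀) < 1) (hne : x ≠ x₀)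
    (hunit : v (y₀ - W.negY x₀ y₀) = 1) :
    Point.some x y h - Point.some x₀ y₀ h₀ ≠ 0 ∧
      v (xCoord W (Point.some x y h - Point.some x₀ y₀ h₀)) = (v (x - x₀))⁻¹ ^ 2 := by
  obtain ⟨hD, e⟩ := some_sub_some W h h₀ hne
  rw [e]
  exact ⟨Point.some_ne_zero hD, valuation_addX_of_unit v W ha₁ ha₂ hx₀ hξ hη hne hunit⟩

/-- **WP-EC7, case `2 P₀ = 0`.** -/
theorem valuation_x_sub_two_torsion {x y x₀ y₀ : K} (h : W.Nonsingular x y)
    (h₀ : W.Nonsingular x₀ y₀) (ha₁ : v W.a₁ ≤ 1) (ha₂ : v W.a₂ ≤ 1) (hx₀ : v x₀ ≤ 1)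
    (hξ : v (x - x₀) < 1) (hη : v (y - y₀) < 1) (hne : x ≠ x₀)
    (htors : y₀ = W.negY x₀ y₀)
    (hWX : v (W.a₁ * y₀ - (3 * x₀ ^ 2 + 2 * W.a₂ * x₀ + W.a₄)) = 1) :
    Point.some x y h - Point.some x₀ y₀ h₀ ≠ 0 ∧
      v (xCoord W (Point.some x y h - Point.some x₀ y₀ h₀)) = (v (x - x₀))⁻¹ ∧
      v (y - y₀) ^ 2 = v (x - x₀) := by
  obtain ⟨hD, e⟩ := some_sub_some W h h₀ hne
  rw [e]
  have := valuation_addX_of_two_torsion v W ha₁ ha₂ hx₀ h.1 h₀.1 hξ hη hne htors hWX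
  exact ⟨Point.some_ne_zero hD, this.2, this.1⟩

end Points

/-! ### Constant points: coefficients and centre in a subfield `k ⊆ A` -/

section Subfield

variable {k : Type*} [Field k] [Algebra k K]

theorem valuation_algebraMap_le_one (hk : ∀ c : k, algebraMap k K c ∈ A) (c : k) :
    A.valuation (algebraMap k K c) ≤ 1 := (A.valuation_le_one_iff _).mpr (hk c)

theorem valuation_algebraMap_eq_one (hk : ∀ c : k, algebraMap k K c ∈ A) {c : k} (hc : c ≠ 0) :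
    A.valuation (algebraMap k K c) = 1 := by
  have h1 := valuation_algebraMap_le_one A hk c
  have h2 := valuation_algebraMap_le_one A hk c⁻¹
  rw [map_inv₀, map_inv₀] at h2
  have hne : A.valuation (algebraMap k K c) ≠ 0 :=
    (Valuation.ne_zero_iff _).mpr (by simpa using hc)
  exact le_antisymm h1 ((inv_le_one₀ (zero_lt_iff.mpr hne)).mp h2)

variable [DecidableEq K]

/-- **WP-EC7 for a constant centre.**  `W₀` a Weierstrass curve over a subfield `k ⊆ A`,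
`P₀ = (x₀, y₀)` a nonsingular `k`-point, `P = (x, y)` a `K`-point congruent to `P₀` modulo the
maximal ideal of `A` with `x ≠ x₀`.  Then `D = P - P₀ ≠ 0` is near infinity, and
`v (x D) = (v (x - x₀))⁻¹ ^ 2` if `2 P₀ ≠ 0`, `v (x D) = (v (x - x₀))⁻¹` if `2 P₀ = 0`. -/
theorem valuation_x_sub_const (hk : ∀ c : k, algebraMap k K c ∈ A) (W₀ : Affine k)
    {x₀ y₀ : k} (h₀ : W₀.Nonsingular x₀ y₀) {x y : K}
    (h : (W₀.map (algebraMap k K)).toAffine.Nonsingular x y)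
    (h₀' : (W₀.map (algebraMap k K)).toAffine.Nonsingular (algebraMap k K x₀) (algebraMap k K y₀))
    (hξ : A.valuation (x - algebraMap k K x₀) < 1) (hη : A.valuation (y - algebraMap k K y₀) < 1)
    (hne : x ≠ algebraMap k K x₀) :
    Point.some x y h - Point.some _ _ h₀' ≠ 0 ∧
    1 < A.valuation (xCoord _ (Point.some x y h - Point.some _ _ h₀')) ∧
    (y₀ ≠ W₀.negY x₀ y₀ → A.valuation (xCoord _ (Point.some x y h - Point.some _ _ h₀')) =
      (A.valuation (x - algebraMap k K x₀))⁻¹ ^ 2) ∧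
    (y₀ = W₀.negY x₀ y₀ → A.valuation (xCoord _ (Point.some x y h - Point.some _ _ h₀')) =
      (A.valuation (x - algebraMap k K x₀))⁻¹ ∧
      A.valuation (y - algebraMap k K y₀) ^ 2 = A.valuation (x - algebraMap k K x₀)) := by
  have ha₁ : A.valuation (W₀.map (algebraMap k K)).toAffine.a₁ ≤ 1 := by
    simpa using valuation_algebraMap_le_one A hk W₀.a₁
  have ha₂ : A.valuation (W₀.map (algebraMap k K)).toAffine.a₂ ≤ 1 := by
    simpa using valuation_algebraMap_le_one A hk W₀.a₂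
  have hx₀ : A.valuation ((algebraMap k K) x₀) ≤ 1 := valuation_algebraMap_le_one A hk x₀
  have hξ0 : A.valuation (x - (algebraMap k K) x₀) ≠ 0 := (Valuation.ne_zero_iff _).mpr (sub_ne_zero.mpr hne)
  have hξpos : 0 < A.valuation (x - (algebraMap k K) x₀) := zero_lt_iff.mpr hξ0
  have hinv : 1 < (A.valuation (x - (algebraMap k K) x₀))⁻¹ := (one_lt_inv₀ hξpos).mpr hξ
  have hnegY : (W₀.map (algebraMap k K)).toAffine.negY ((algebraMap k K) x₀) ((algebraMap k K) y₀) = (algebraMap k K) (W₀.negY x₀ y₀) := map_negY ..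
  by_cases hy : y₀ = W₀.negY x₀ y₀
  · -- two-torsion centre
    have htors : (algebraMap k K) y₀ = (W₀.map (algebraMap k K)).toAffine.negY ((algebraMap k K) x₀) ((algebraMap k K) y₀) := by rw [hnegY, ← hy]
    have hWY : W₀.polynomialY.evalEval x₀ y₀ = 0 := by
      rw [evalEval_polynomialY]
      have := hy
      rw [negY] at this
      linear_combination this
    have hWX0 : W₀.a₁ * y₀ - (3 * x₀ ^ 2 + 2 * W₀.a₂ * x₀ + W₀.a₄) ≠ 0 := by
      have := (W₀.nonsingular_iff' x₀ y₀).mp h₀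
      rcases this.2 with h1 | h1
      · exact h1
      · exact absurd (by rw [← evalEval_polynomialY]; exact hWY) h1
    have hWX : A.valuation ((W₀.map (algebraMap k K)).toAffine.a₁ * (algebraMap k K) y₀ -
        (3 * (algebraMap k K) x₀ ^ 2 + 2 * (W₀.map (algebraMap k K)).toAffine.a₂ * (algebraMap k K) x₀ + (W₀.map (algebraMap k K)).toAffine.a₄)) = 1 := by
      have := valuation_algebraMap_eq_one A hk hWX0
      simpa [map_ofNat] using this
    have := valuation_x_sub_two_torsion A.valuation _ h h₀' ha₁ ha₂ hx₀ hξ hη hne htors hWX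
    refine ⟨this.1, ?_, fun hy' => absurd hy hy', fun _ => this.2⟩
    rw [this.2.1]; exact hinv
  · -- generic centre
    have hunit : A.valuation ((algebraMap k K) y₀ - (W₀.map (algebraMap k K)).toAffine.negY ((algebraMap k K) x₀) ((algebraMap k K) y₀)) = 1 := by
      rw [hnegY, ← map_sub]
      exact valuation_algebraMap_eq_one A hk (sub_ne_zero.mpr hy)
    have := valuation_x_sub A.valuation _ h h₀' ha₁ ha₂ hx₀ hξ hη hne hunit
    refine ⟨this.1, ?_, fun _ => this.2, fun hy' => absurd hy' hy⟩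
    rw [this.2]
    exact one_lt_sq_of_one_lt hinv

end Subfield

end Fermat.Agent.Lib.EC.LocalOrder
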