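import Mathlib

/-!
# P-ELL WP-EC3: the generic point of a Weierstrass curve over its own function field

`F` a field, `W : WeierstrassCurve F`, `k` a field extension of `F`.  `L := FF W k` is the function
field of `W⁄k`; the *generic point* `genericPoint W k = (x, y)` is a nonsingular point of `W⁄L`.
The involution `invol` of `L` (`y ↦ -y - a₁x - a₃`) has fixed field `k(x) = ratEmb (RatFunc k)`;
the *odd points* `Q` (those with `invol Q = -Q`) form a subgroup containing the generic point, and
their `x`-coordinates lie in `k(x)`.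
-/

set_option autoImplicit false

noncomputable section

namespace Fermat.Agent.Lib.EC.FunctionField

open WeierstrassCurve Polynomial
open scoped Polynomial.Bivariate

variable {F : Type*} [Field F] (W : WeierstrassCurve F) (k : Type*) [Field k] [Algebra F k]

/-- The affine coordinate ring of `W⁄k`. -/
abbrev CR : Type _ := (W⁄k).toAffine.CoordinateRing

/-- The function field of `W⁄k`. -/
abbrev FF : Type _ := (W⁄k).toAffine.FunctionField

/-- The class of `X` in the coordinate ring. -/
def xC : CR W k := Affine.CoordinateRing.mk (W⁄k).toAffine (C X)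

/-- The class of `Y` in the coordinate ring. -/
def yC : CR W k := Affine.CoordinateRing.mk (W⁄k).toAffine Y

/-- The function `x`. -/
def xF : FF W k := algebraMap (CR W k) (FF W k) (xC W k)

/-- The function `y`. -/
def yF : FF W k := algebraMap (CR W k) (FF W k) (yC W k)

theorem equation_CR :
    (yC W k) ^ 2 + algebraMap k (CR W k) (W⁄k).a₁ * xC W k * yC W k
        + algebraMap k (CR W k) (W⁄k).a₃ * yC W k
      = (xC W k) ^ 3 + algebraMap k (CR W k) (W⁄k).a₂ * (xC W k) ^ 2
        + algebraMap k (CR W k) (W⁄k).a₄ * xC W k + algebraMap k (CR W k) (W⁄k).a₆ := by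
  have h : Affine.CoordinateRing.mk (W⁄k).toAffine (W⁄k).toAffine.polynomial = 0 :=
    AdjoinRoot.mk_self
  simp only [Affine.polynomial] at h
  simp only [map_add, map_sub, map_mul, map_pow] at h
  have hC : ∀ c : k, Affine.CoordinateRing.mk (W⁄k).toAffine (C (C c)) =
      algebraMap k (CR W k) c := fun c => rfl
  simp only [hC] at h
  rw [← sub_eq_zero]
  rw [← h]
  simp only [xC, yC]
  ring

theorem algebraMap_CR_FF_injective :
    Function.Injective (algebraMap (CR W k) (FF W k)) :=
  IsFractionRing.injective (CR W k) (FF W k)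

theorem baseChange_a₁ : (W⁄(FF W k)).a₁ = algebraMap k (FF W k) (W⁄k).a₁ := by
  simp [WeierstrassCurve.baseChange, ← IsScalarTower.algebraMap_apply]

theorem baseChange_a₂ : (W⁄(FF W k)).a₂ = algebraMap k (FF W k) (W⁄k).a₂ := by
  simp [WeierstrassCurve.baseChange, ← IsScalarTower.algebraMap_apply]

theorem baseChange_a₃ : (W⁄(FF W k)).a₃ = algebraMap k (FF W k) (W⁄k).a₃ := by
  simp [WeierstrassCurve.baseChange, ← IsScalarTower.algebraMap_apply]

theorem baseChange_a₄ : (W⁄(FF W k)).a₄ = algebraMap k (FF W k) (W⁄k).a₄ := by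
  simp [WeierstrassCurve.baseChange, ← IsScalarTower.algebraMap_apply]

theorem baseChange_a₆ : (W⁄(FF W k)).a₆ = algebraMap k (FF W k) (W⁄k).a₆ := by
  simp [WeierstrassCurve.baseChange, ← IsScalarTower.algebraMap_apply]

theorem equation_generic : (W⁄(FF W k)).toAffine.Equation (xF W k) (yF W k) := by
  rw [Affine.equation_iff, baseChange_a₁, baseChange_a₂, baseChange_a₃, baseChange_a₄,
    baseChange_a₆]
  have h := congrArg (algebraMap (CR W k) (FF W k)) (equation_CR W k)
  simp only [map_add, map_mul, map_pow, ← IsScalarTower.algebraMap_apply] at h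
  exact h

/-- Elements `p + q y` of the coordinate ring with `p, q ∈ k[x]`. -/
theorem CR_eq_zero_iff (p q : k[X]) :
    Affine.CoordinateRing.mk (W⁄k).toAffine (C p) + Affine.CoordinateRing.mk (W⁄k).toAffine (C q) *
      yC W k = 0 ↔ p = 0 ∧ q = 0 := by
  constructor
  · intro h
    apply Affine.CoordinateRing.smul_basis_eq_zero (W' := (W⁄k).toAffine)
    rw [Affine.CoordinateRing.smul, Affine.CoordinateRing.smul, mul_one]
    exact h
  · rintro ⟨rfl, rfl⟩
    simp

theorem nonsingular_generic : (W⁄(FF W k)).toAffine.Nonsingular (xF W k) (yF W k) := by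
  rw [Affine.nonsingular_iff']
  refine ⟨equation_generic W k, ?_⟩
  rw [baseChange_a₁, baseChange_a₂, baseChange_a₃, baseChange_a₄]
  by_contra hcon
  rw [not_or, not_not, not_not] at hcon
  obtain ⟨hX, hY⟩ := hcon
  -- pull both equations back to the coordinate ring
  have hX' : Affine.CoordinateRing.mk (W⁄k).toAffine
        (C (-(C 3 * X ^ 2 + C (2 * (W⁄k).a₂) * X + C (W⁄k).a₄))) +
      Affine.CoordinateRing.mk (W⁄k).toAffine (C (C (W⁄k).a₁)) * yC W k = 0 := by
    apply algebraMap_CR_FF_injective W k
    rw [map_zero, ← hX]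
    have hC : ∀ c : k, Affine.CoordinateRing.mk (W⁄k).toAffine (C (C c)) =
      algebraMap k (CR W k) c := fun c => rfl
    simp only [map_add, map_mul, map_neg, map_pow, map_ofNat, hC, xF, yF,
      ← IsScalarTower.algebraMap_apply]
    simp only [xC, yC]
    ring
  have hY' : Affine.CoordinateRing.mk (W⁄k).toAffine
        (C (C (W⁄k).a₁ * X + C (W⁄k).a₃)) +
      Affine.CoordinateRing.mk (W⁄k).toAffine (C (C 2)) * yC W k = 0 := by
    apply algebraMap_CR_FF_injective W k
    rw [map_zero, ← hY]
    have hC : ∀ c : k, Affine.CoordinateRing.mk (W⁄k).toAffine (C (C c)) =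
      algebraMap k (CR W k) c := fun c => rfl
    simp only [map_add, map_mul, map_ofNat, hC, xF, yF, ← IsScalarTower.algebraMap_apply]
    simp only [xC, yC]
    ring
  have h3 := ((CR_eq_zero_iff W k _ _).mp hX').1
  have h2 := ((CR_eq_zero_iff W k _ _).mp hY').2
  have h2' : (2 : k) = 0 := by simpa using h2
  have h3' : (3 : k) = 0 := by
    have := congrArg (fun p : k[X] => p.coeff 2) h3
    simpa [coeff_X] using this
  have : (1 : k) = 0 := by linear_combination h3' - h2'
  exact one_ne_zero this

/-- The generic point `(x, y)` of `W` over the function field of `W⁄k`. -/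
def genericPoint : (W⁄(FF W k)).toAffine.Point :=
  .some _ _ (nonsingular_generic W k)

end Fermat.Agent.Lib.EC.FunctionField
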