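import Fermat.Agent.Lib.EC.FunctionField.Concrete
import Fermat.Agent.Lib.EC.Parallelogram

/-!
# P-ELL: the height on the odd points of `W` over its function field (bridge EC3 ↔ EC8)

`height W k Q := ratHeight (xT W k Q)` for `Q : PtL W k`.  On the subgroup `oddPoints W k` it is
the quadratic form `hT` of `Parallelogram` (for `K = FF W k`, `ι = ratEmb W k`, `σ = involA W k`):
exact parallelogram law, `height genericPoint = 1`, `height (frobPt Q) = q * height Q`,
`height (m • P + s • Q) = m² height P + m s B(P, Q) + s² height Q`.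
-/

set_option autoImplicit false

noncomputable section

namespace Fermat.Agent.Lib.EC.FunctionField

open WeierstrassCurve Polynomial

variable {F : Type*} [Field F] (W : WeierstrassCurve F) (k : Type*) [Field k] [Algebra F k]

/-- The height of a point over the function field: the degree of its `x`-coordinate as a rational
function (meaningful for odd points; `0` at infinity). -/
def height (Q : PtL W k) : ℤ := (ratHeight (xT W k Q) : ℕ)

theorem height_nonneg (Q : PtL W k) : 0 ≤ height W k Q := Int.natCast_nonneg _

theorem height_zero : height W k 0 = 0 := by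
  rw [height, xT_zero, ratHeight_zero]
  rfl

theorem height_genericPoint : height W k (genericPoint W k) = 1 := by
  rw [height, xT_genericPoint, ratHeight_X]
  rfl

variable [DecidableEq (FF W k)]

/-- An odd point, as an element of the abstract subgroup of `ParallelogramOdd`. -/
def toOdd {Q : PtL W k} (hQ : Q ∈ oddPoints W k) :
    Parallelogram.oddPoints W (involA W k) :=
  ⟨Q, (mem_oddPoints_iff W k Q).mp hQ⟩

@[simp] theorem coe_toOdd {Q : PtL W k} (hQ : Q ∈ oddPoints W k) :
    ((toOdd W k hQ : Parallelogram.oddPoints W (involA W k)) : PtL W k) = Q := rfl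

variable (hW : ¬((2 : k) = 0 ∧ (W⁄k).a₁ = 0 ∧ (W⁄k).a₃ = 0))

/-- The two `xT` agree. -/
theorem xT_bridge {Q : PtL W k} (hQ : Q ∈ oddPoints W k) :
    Parallelogram.xT (ratEmb W k) (hfix W k hW) (toOdd W k hQ) = xT W k Q := by
  rcases Q with _ | ⟨x, y, h⟩
  · have h0 : toOdd W k hQ = 0 := Subtype.ext rfl
    rw [h0, Parallelogram.xT_zero]
    exact (xT_zero W k).symm
  · refine Parallelogram.xT_eq_of_some (ratEmb W k) (hfix W k hW) (Q := toOdd W k hQ) rfl ?_
    have := ratEmb_xT W k hW hQ
    rwa [xCoord_some] at this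

/-- The two heights agree. -/
theorem hT_bridge {Q : PtL W k} (hQ : Q ∈ oddPoints W k) :
    Parallelogram.hT (ratEmb W k) (hfix W k hW) (toOdd W k hQ) = height W k Q := by
  rw [Parallelogram.hT_eq_ratHeight, xT_bridge W k hW hQ, height]

omit [DecidableEq (FF W k)] hW in
/-- `height Q = 0` iff the `x`-coordinate is constant (or `Q = 0`). -/
theorem height_eq_zero_iff (Q : PtL W k) :
    height W k Q = 0 ↔ ∃ c : k, xT W k Q = RatFunc.C c := by
  rw [height, ← ratHeight_eq_zero_iff]
  exact_mod_cast Iff.rfl

include hW in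
/-- An odd point of height `0` is `0` or has constant `x`-coordinate. -/
theorem eq_zero_or_xCoord_const_of_height_eq_zero {Q : PtL W k} (hQ : Q ∈ oddPoints W k)
    (h0 : height W k Q = 0) :
    Q = 0 ∨ ∃ c : k, xCoord W k Q = algebraMap k (FF W k) c := by
  right
  obtain ⟨c, hc⟩ := (height_eq_zero_iff W k Q).mp h0
  refine ⟨c, ?_⟩
  rw [← ratEmb_xT W k hW hQ, hc, ratEmb_C]

section Elliptic

variable [(W⁄k).IsElliptic]

omit [DecidableEq (FF W k)] hW in
/-- The hypothesis `hW` holds for elliptic curves. -/
theorem hW_of_isElliptic : ¬((2 : k) = 0 ∧ (W⁄k).a₁ = 0 ∧ (W⁄k).a₃ = 0) :=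
  not_two_a₁_a₃_of_Δ_ne_zero W k (W⁄k).isUnit_Δ.ne_zero

/-- **Exact parallelogram law** for the height on odd points. -/
theorem height_parallelogram {P Q : PtL W k} (hP : P ∈ oddPoints W k) (hQ : Q ∈ oddPoints W k) :
    height W k (P + Q) + height W k (P - Q) = 2 * height W k P + 2 * height W k Q := by
  have hW := hW_of_isElliptic W k
  have h := Parallelogram.hT_parallelogram (ratEmb W k) (hfix W k hW) (toOdd W k hP)
    (toOdd W k hQ)
  have e1 : toOdd W k hP + toOdd W k hQ = toOdd W k ((oddPoints W k).add_mem hP hQ) :=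
    Subtype.ext rfl
  have e2 : toOdd W k hP - toOdd W k hQ = toOdd W k ((oddPoints W k).sub_mem hP hQ) :=
    Subtype.ext rfl
  rw [e1, e2, hT_bridge W k hW, hT_bridge W k hW, hT_bridge W k hW, hT_bridge W k hW] at h
  exact h

/-- The height restricted to the subgroup of odd points. -/
def heightT (Q : oddPoints W k) : ℤ := height W k (Q : PtL W k)

theorem heightT_parallelogram (P Q : oddPoints W k) :
    heightT W k (P + Q) + heightT W k (P - Q) = 2 * heightT W k P + 2 * heightT W k Q :=
  height_parallelogram W k P.2 Q.2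

theorem height_neg {Q : PtL W k} (hQ : Q ∈ oddPoints W k) : height W k (-Q) = height W k Q :=
  Quadratic.neg_of_parallelogram (heightT_parallelogram W k) ⟨Q, hQ⟩

theorem height_zsmul (m : ℤ) {Q : PtL W k} (hQ : Q ∈ oddPoints W k) :
    height W k (m • Q) = m ^ 2 * height W k Q :=
  Quadratic.zsmul_of_parallelogram (heightT_parallelogram W k) m ⟨Q, hQ⟩

/-- The height is a quadratic form on the odd points. -/
theorem height_zsmul_add_zsmul (m s : ℤ) {P Q : PtL W k} (hP : P ∈ oddPoints W k)
    (hQ : Q ∈ oddPoints W k) :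
    height W k (m • P + s • Q) = m ^ 2 * height W k P
      + m * s * (height W k (P + Q) - height W k P - height W k Q) + s ^ 2 * height W k Q :=
  Quadratic.zsmul_add_zsmul (heightT_parallelogram W k) m s ⟨P, hP⟩ ⟨Q, hQ⟩

/-- `height (m • genericPoint) = m²`. -/
theorem height_zsmul_genericPoint (m : ℤ) : height W k (m • genericPoint W k) = m ^ 2 := by
  rw [height_zsmul W k m (genericPoint_mem_oddPoints W k), height_genericPoint, mul_one]

end Elliptic

section Frobenius

variable [Fintype F]

include hW in
/-- Frobenius multiplies the height by `q = #F`. -/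
theorem height_frobPt {Q : PtL W k} (hQ : Q ∈ oddPoints W k) :
    height W k (frobPt W k Q) = Fintype.card F * height W k Q := by
  rw [height, height, xT_frobPt W k hW hQ, ratHeight_pow]
  push_cast
  ring

include hW in
theorem height_iterate_frobPt (r : ℕ) {Q : PtL W k} (hQ : Q ∈ oddPoints W k) :
    height W k ((frobPt W k)^[r] Q) = (Fintype.card F : ℤ) ^ r * height W k Q := by
  induction r generalizing Q with
  | zero => simp
  | succ r ih =>
    rw [Function.iterate_succ_apply, ih (frobPt_mem_oddPoints W k hQ), height_frobPt W k hW hQ]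
    ring

end Frobenius

end Fermat.Agent.Lib.EC.FunctionField
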