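import Fermat.Agent.Lib.EC.FunctionField.Generic

/-!
# P-ELL WP-EC3 (part 2): `k(x) ⊆ k(W)`, the involution, the fixed field

* `ratEmb : RatFunc k →ₐ[k] FF W k`, `X ↦ x`.
* `invol : FF W k ≃ₐ[k] FF W k`, `x ↦ x`, `y ↦ -y - a₁ x - a₃`.
* every element of `FF W k` is `ratEmb P + ratEmb Q * y`;
* the fixed field of `invol` is the range of `ratEmb` (if not `2 = 0 ∧ a₁ = 0 ∧ a₃ = 0`).
-/

set_option autoImplicit false

noncomputable section

namespace Fermat.Agent.Lib.EC.FunctionField

open WeierstrassCurve Polynomial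
open scoped Polynomial.Bivariate

variable {F : Type*} [Field F] (W : WeierstrassCurve F) (k : Type*) [Field k] [Algebra F k]

/-- `k[X] → k[W]` as a `k`-algebra homomorphism. -/
def polyC : k[X] →ₐ[k] CR W k := IsScalarTower.toAlgHom k k[X] (CR W k)

theorem polyC_apply (p : k[X]) :
    polyC W k p = Affine.CoordinateRing.mk (W⁄k).toAffine (C p) := rfl

theorem polyC_X : polyC W k X = xC W k := rfl

theorem polyC_C (c : k) : polyC W k (C c) = algebraMap k (CR W k) c := rfl

theorem polyC_injective : Function.Injective (polyC W k) := by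
  rw [injective_iff_map_eq_zero]
  intro p hp
  have h := (CR_eq_zero_iff W k p 0).mp (by rw [← polyC_apply, hp]; simp)
  exact h.1

/-- `k[X] → k(W)` as a `k`-algebra homomorphism. -/
def polyEmb : k[X] →ₐ[k] FF W k := IsScalarTower.toAlgHom k k[X] (FF W k)

theorem polyEmb_apply (p : k[X]) :
    polyEmb W k p = algebraMap (CR W k) (FF W k) (polyC W k p) := rfl

theorem polyEmb_X : polyEmb W k X = xF W k := rfl

theorem polyEmb_injective : Function.Injective (polyEmb W k) := fun _ _ h =>
  polyC_injective W k (algebraMap_CR_FF_injective W k h)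

/-- The embedding `k(x) → k(W)`. -/
def ratEmb : RatFunc k →ₐ[k] FF W k := IsFractionRing.liftAlgHom (polyEmb_injective W k)

theorem ratEmb_algebraMap (p : k[X]) :
    ratEmb W k (algebraMap k[X] (RatFunc k) p) = polyEmb W k p := by
  simp [ratEmb, IsFractionRing.liftAlgHom_apply]

theorem ratEmb_X : ratEmb W k RatFunc.X = xF W k := by
  rw [← RatFunc.algebraMap_X, ratEmb_algebraMap, polyEmb_X]

theorem ratEmb_C (c : k) : ratEmb W k (RatFunc.C c) = algebraMap k (FF W k) c := by
  rw [← RatFunc.algebraMap_eq_C, AlgHom.commutes]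

theorem ratEmb_injective : Function.Injective (ratEmb W k) := (ratEmb W k).injective


/-! ### Every element of the coordinate ring is `p + q y` -/

theorem exists_polyC_add (a : CR W k) :
    ∃ p q : k[X], a = polyC W k p + polyC W k q * yC W k := by
  obtain ⟨p, q, h⟩ := Affine.CoordinateRing.exists_smul_basis_eq (W' := (W⁄k).toAffine) a
  refine ⟨p, q, ?_⟩
  rw [← h, Affine.CoordinateRing.smul, Affine.CoordinateRing.smul, mul_one]
  rfl

theorem polyC_add_eq_zero_iff (p q : k[X]) :
    polyC W k p + polyC W k q * yC W k = 0 ↔ p = 0 ∧ q = 0 :=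
  CR_eq_zero_iff W k p q

/-! ### Maps out of the coordinate ring -/

section lift

variable {A : Type*} [CommRing A] [Algebra k A]

theorem eval₂_polynomial (u v : A) :
    (W⁄k).toAffine.polynomial.eval₂ ((aeval u : k[X] →ₐ[k] A) : k[X] →+* A) v =
      v ^ 2 + (algebraMap k A (W⁄k).a₁ * u + algebraMap k A (W⁄k).a₃) * v
        - (u ^ 3 + algebraMap k A (W⁄k).a₂ * u ^ 2 + algebraMap k A (W⁄k).a₄ * u
          + algebraMap k A (W⁄k).a₆) := by
  simp [Affine.polynomial, eval₂_add, eval₂_sub, eval₂_mul, eval₂_pow]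

/-- The `k`-algebra map `k[W] → A` with `x ↦ u`, `y ↦ v`, for `(u, v)` a point of `W` in `A`. -/
def liftCR (u v : A)
    (h : v ^ 2 + algebraMap k A (W⁄k).a₁ * u * v + algebraMap k A (W⁄k).a₃ * v =
      u ^ 3 + algebraMap k A (W⁄k).a₂ * u ^ 2 + algebraMap k A (W⁄k).a₄ * u
        + algebraMap k A (W⁄k).a₆) : CR W k →ₐ[k] A :=
  AdjoinRoot.liftAlgHom _ (aeval u) v (by rw [eval₂_polynomial, ← sub_eq_zero.mpr h]; ring)

variable (u v : A)
    (h : v ^ 2 + algebraMap k A (W⁄k).a₁ * u * v + algebraMap k A (W⁄k).a₃ * v =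
      u ^ 3 + algebraMap k A (W⁄k).a₂ * u ^ 2 + algebraMap k A (W⁄k).a₄ * u
        + algebraMap k A (W⁄k).a₆)

theorem liftCR_polyC (p : k[X]) : liftCR W k u v h (polyC W k p) = aeval u p := by
  rw [polyC_apply]
  simp [liftCR]

theorem liftCR_xC : liftCR W k u v h (xC W k) = u := by
  rw [← polyC_X, liftCR_polyC, aeval_X]

theorem liftCR_yC : liftCR W k u v h (yC W k) = v := by
  simp [liftCR, yC]

theorem CR_algHom_ext {f g : CR W k →ₐ[k] A} (hx : f (xC W k) = g (xC W k))
    (hy : f (yC W k) = g (yC W k)) : f = g := by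
  have hp : f.comp (polyC W k) = g.comp (polyC W k) := by
    apply Polynomial.algHom_ext
    simpa [polyC_X] using hx
  refine AlgHom.ext fun a => ?_
  obtain ⟨p, q, rfl⟩ := exists_polyC_add W k a
  have h1 := fun r => AlgHom.congr_fun hp r
  simp only [AlgHom.comp_apply] at h1
  simp only [map_add, map_mul, h1, hy]

end lift


/-! ### The involution -/

theorem polyC_eq_aeval (p : k[X]) : polyC W k p = aeval (xC W k) p := by
  have := Polynomial.aeval_algHom_apply (polyC W k) (X : k[X]) p
  rw [polyC_X, aeval_X_left_apply] at this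
  exact this.symm

/-- `-y - a₁ x - a₃` in the coordinate ring. -/
def negYC : CR W k :=
  -yC W k - algebraMap k (CR W k) (W⁄k).a₁ * xC W k - algebraMap k (CR W k) (W⁄k).a₃

theorem equation_negYC :
    (negYC W k) ^ 2 + algebraMap k (CR W k) (W⁄k).a₁ * xC W k * negYC W k
        + algebraMap k (CR W k) (W⁄k).a₃ * negYC W k
      = (xC W k) ^ 3 + algebraMap k (CR W k) (W⁄k).a₂ * (xC W k) ^ 2
        + algebraMap k (CR W k) (W⁄k).a₄ * xC W k + algebraMap k (CR W k) (W⁄k).a₆ := by
  rw [← equation_CR W k]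
  simp only [negYC]
  ring

/-- The involution on the coordinate ring, as an algebra homomorphism. -/
def involCHom : CR W k →ₐ[k] CR W k :=
  liftCR W k (xC W k) (negYC W k) (equation_negYC W k)

theorem involCHom_xC : involCHom W k (xC W k) = xC W k := liftCR_xC W k _ _ _

theorem involCHom_yC : involCHom W k (yC W k) = negYC W k := liftCR_yC W k _ _ _

theorem involCHom_polyC (p : k[X]) : involCHom W k (polyC W k p) = polyC W k p := by
  rw [involCHom, liftCR_polyC, polyC_eq_aeval]

theorem involCHom_negYC : involCHom W k (negYC W k) = yC W k := by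
  simp only [negYC, map_sub, map_neg, map_mul, AlgHom.commutes, involCHom_xC, involCHom_yC]
  ring

theorem involCHom_comp_self : (involCHom W k).comp (involCHom W k) = AlgHom.id k (CR W k) := by
  apply CR_algHom_ext W k
  · simp [involCHom_xC]
  · simp [involCHom_yC, involCHom_negYC]

/-- The involution on the coordinate ring. -/
def involC : CR W k ≃ₐ[k] CR W k :=
  AlgEquiv.ofAlgHom (involCHom W k) (involCHom W k) (involCHom_comp_self W k)
    (involCHom_comp_self W k)

theorem involC_apply (a : CR W k) : involC W k a = involCHom W k a := rfl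

/-- The involution `(x, y) ↦ (x, -y - a₁ x - a₃)` of the function field. -/
def invol : FF W k ≃ₐ[k] FF W k := IsFractionRing.algEquivOfAlgEquiv (involC W k)

theorem invol_algebraMap (a : CR W k) :
    invol W k (algebraMap (CR W k) (FF W k) a) = algebraMap (CR W k) (FF W k) (involCHom W k a) :=
  IsFractionRing.algEquivOfAlgEquiv_algebraMap (involC W k) a

/-- `-y - a₁ x - a₃` in the function field. -/
def negYF : FF W k :=
  -yF W k - algebraMap k (FF W k) (W⁄k).a₁ * xF W k - algebraMap k (FF W k) (W⁄k).a₃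

theorem algebraMap_negYC : algebraMap (CR W k) (FF W k) (negYC W k) = negYF W k := by
  simp only [negYC, negYF, map_sub, map_neg, map_mul, xF, yF, ← IsScalarTower.algebraMap_apply]

theorem invol_xF : invol W k (xF W k) = xF W k := by
  rw [xF, invol_algebraMap, involCHom_xC]

theorem invol_yF : invol W k (yF W k) = negYF W k := by
  rw [yF, invol_algebraMap, involCHom_yC, algebraMap_negYC]

theorem invol_polyEmb (p : k[X]) : invol W k (polyEmb W k p) = polyEmb W k p := by
  rw [polyEmb_apply, invol_algebraMap, involCHom_polyC]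

theorem invol_ratEmb (r : RatFunc k) : invol W k (ratEmb W k r) = ratEmb W k r := by
  induction r using RatFunc.induction_on with
  | f p q hq =>
    simp only [map_div₀, ratEmb_algebraMap, invol_polyEmb]

theorem invol_invol (f : FF W k) : invol W k (invol W k f) = f := by
  obtain ⟨a, b, hb, rfl⟩ := IsFractionRing.div_surjective (CR W k) f
  have h := fun c => AlgHom.congr_fun (involCHom_comp_self W k) c
  simp only [AlgHom.comp_apply, AlgHom.id_apply] at h
  simp only [map_div₀, invol_algebraMap, h]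

theorem invol_negYF : invol W k (negYF W k) = yF W k := by
  rw [← invol_yF, invol_invol]


/-! ### The norm to `k[x]`, the decomposition `f = P + Q y` -/

theorem yC_add_negYC :
    yC W k + negYC W k = polyC W k (-(C (W⁄k).a₁ * X + C (W⁄k).a₃)) := by
  simp only [negYC, map_neg, map_add, map_mul, polyC_X, polyC_C]
  ring

theorem yC_mul_negYC :
    yC W k * negYC W k =
      polyC W k (-(X ^ 3 + C (W⁄k).a₂ * X ^ 2 + C (W⁄k).a₄ * X + C (W⁄k).a₆)) := by
  simp only [map_neg, map_add, map_mul, map_pow, polyC_X, polyC_C]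
  rw [← equation_CR W k]
  simp only [negYC]
  ring

/-- The norm `a * ι a` of an element of the coordinate ring lies in `k[x]`. -/
theorem exists_mul_involCHom (a : CR W k) : ∃ n : k[X], a * involCHom W k a = polyC W k n := by
  obtain ⟨p, q, rfl⟩ := exists_polyC_add W k a
  refine ⟨p ^ 2 + p * q * (-(C (W⁄k).a₁ * X + C (W⁄k).a₃)) +
    q ^ 2 * (-(X ^ 3 + C (W⁄k).a₂ * X ^ 2 + C (W⁄k).a₄ * X + C (W⁄k).a₆)), ?_⟩
  rw [map_add, map_mul, involCHom_polyC, involCHom_polyC, involCHom_yC, map_add, map_add,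
    map_mul (polyC W k), map_mul (polyC W k), map_mul (polyC W k), map_pow, map_pow,
    ← yC_add_negYC, ← yC_mul_negYC]
  ring

theorem involCHom_injective : Function.Injective (involCHom W k) := (involC W k).injective

/-- Every function is `P + Q y` with `P, Q ∈ k(x)`. -/
theorem exists_ratEmb_add (f : FF W k) :
    ∃ P Q : RatFunc k, f = ratEmb W k P + ratEmb W k Q * yF W k := by
  obtain ⟨a, b, hb, rfl⟩ := IsFractionRing.div_surjective (CR W k) f
  have hb0 : b ≠ 0 := nonZeroDivisors.ne_zero hb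
  have hib0 : involCHom W k b ≠ 0 := fun h0 =>
    hb0 (involCHom_injective W k (by rw [h0, map_zero]))
  obtain ⟨n, hn⟩ := exists_mul_involCHom W k b
  obtain ⟨p, q, hpq⟩ := exists_polyC_add W k (a * involCHom W k b)
  have hn0 : n ≠ 0 := by
    rintro rfl
    rw [map_zero] at hn
    exact (mul_ne_zero hb0 hib0) hn
  have hne : polyEmb W k n ≠ 0 := fun h0 =>
    hn0 (polyEmb_injective W k (by rw [h0, map_zero]))
  refine ⟨algebraMap k[X] (RatFunc k) p / algebraMap k[X] (RatFunc k) n,
    algebraMap k[X] (RatFunc k) q / algebraMap k[X] (RatFunc k) n, ?_⟩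
  simp only [map_div₀, ratEmb_algebraMap]
  have hb' : algebraMap (CR W k) (FF W k) b ≠ 0 := fun h0 =>
    hb0 (algebraMap_CR_FF_injective W k (by rw [h0, map_zero]))
  have h1 : algebraMap (CR W k) (FF W k) a * algebraMap (CR W k) (FF W k) (involCHom W k b) =
      polyEmb W k p + polyEmb W k q * yF W k := by
    rw [← map_mul, hpq, map_add, map_mul]
    rfl
  have h2 : algebraMap (CR W k) (FF W k) b * algebraMap (CR W k) (FF W k) (involCHom W k b) =
      polyEmb W k n := by
    rw [← map_mul, hn]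
    rfl
  have hib' : algebraMap (CR W k) (FF W k) (involCHom W k b) ≠ 0 := fun h0 =>
    hib0 (algebraMap_CR_FF_injective W k (by rw [h0, map_zero]))
  rw [div_eq_iff hb']
  field_simp
  rw [← h1, ← h2]
  ring

/-- `1, y` are linearly independent over `k(x)`. -/
theorem ratEmb_add_eq_zero_iff (P Q : RatFunc k) :
    ratEmb W k P + ratEmb W k Q * yF W k = 0 ↔ P = 0 ∧ Q = 0 := by
  constructor
  · intro h
    have hP := RatFunc.num_div_denom P
    have hQ := RatFunc.num_div_denom Q
    have hdP : P.denom ≠ 0 := RatFunc.denom_ne_zero P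
    have hdQ : Q.denom ≠ 0 := RatFunc.denom_ne_zero Q
    have hdP' : polyEmb W k P.denom ≠ 0 := fun h0 =>
      hdP (polyEmb_injective W k (by rw [h0, map_zero]))
    have hdQ' : polyEmb W k Q.denom ≠ 0 := fun h0 =>
      hdQ (polyEmb_injective W k (by rw [h0, map_zero]))
    rw [← hP, ← hQ] at h
    simp only [map_div₀, ratEmb_algebraMap] at h
    have h' : polyEmb W k (P.num * Q.denom) + polyEmb W k (Q.num * P.denom) * yF W k = 0 := by
      rw [map_mul, map_mul]
      field_simp at h
      linear_combination h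
    have h'' : polyC W k (P.num * Q.denom) + polyC W k (Q.num * P.denom) * yC W k = 0 := by
      apply algebraMap_CR_FF_injective W k
      rw [map_zero, ← h']
      simp only [map_add, map_mul, polyEmb_apply, yF]
    obtain ⟨h1, h2⟩ := (polyC_add_eq_zero_iff W k _ _).mp h''
    have hPn : P.num = 0 := by
      rcases mul_eq_zero.mp h1 with h | h
      · exact h
      · exact absurd h hdQ
    have hQn : Q.num = 0 := by
      rcases mul_eq_zero.mp h2 with h | h
      · exact h
      · exact absurd h hdP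
    constructor
    · rw [← hP, hPn]; simp
    · rw [← hQ, hQn]; simp
  · rintro ⟨rfl, rfl⟩
    simp

/-- The fixed field of the involution is `k(x)`. -/
theorem invol_eq_self_iff (hW : ¬((2 : k) = 0 ∧ (W⁄k).a₁ = 0 ∧ (W⁄k).a₃ = 0)) (f : FF W k) :
    invol W k f = f ↔ f ∈ Set.range (ratEmb W k) := by
  constructor
  · intro h
    obtain ⟨P, Q, rfl⟩ := exists_ratEmb_add W k f
    rw [map_add, map_mul, invol_ratEmb, invol_ratEmb, invol_yF] at h
    have h1 : ratEmb W k Q * (yF W k - negYF W k) = 0 := by linear_combination -h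
    have h2 : yF W k - negYF W k =
        ratEmb W k (algebraMap k[X] (RatFunc k) (C (W⁄k).a₁ * X + C (W⁄k).a₃))
          + ratEmb W k (algebraMap k[X] (RatFunc k) (C 2)) * yF W k := by
      simp only [negYF, ratEmb_algebraMap, map_add, map_mul, polyEmb_X]
      have hC : ∀ c : k, polyEmb W k (C c) = algebraMap k (FF W k) c := fun c => rfl
      rw [hC, hC, hC, map_ofNat]
      ring
    have h3 : yF W k - negYF W k ≠ 0 := by
      rw [h2]
      intro h0
      obtain ⟨ha, hb⟩ := (ratEmb_add_eq_zero_iff W k _ _).mp h0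
      have ha' : C (W⁄k).a₁ * X + C (W⁄k).a₃ = (0 : k[X]) :=
        (IsFractionRing.injective k[X] (RatFunc k)) (by rw [ha, map_zero])
      have hb' : (C 2 : k[X]) = 0 :=
        (IsFractionRing.injective k[X] (RatFunc k)) (by rw [hb, map_zero])
      apply hW
      refine ⟨by simpa using hb', ?_, ?_⟩
      · have := congrArg (fun p : k[X] => p.coeff 1) ha'
        simpa [coeff_X] using this
      · have := congrArg (fun p : k[X] => p.coeff 0) ha'
        simpa [coeff_X] using this
    have hQ : ratEmb W k Q = 0 := by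
      rcases mul_eq_zero.mp h1 with h | h
      · exact h
      · exact absurd h h3
    exact ⟨P, by rw [hQ]; ring⟩
  · rintro ⟨r, rfl⟩
    exact invol_ratEmb W k r


/-- The hypothesis of `invol_eq_self_iff` holds for curves with nonzero discriminant. -/
theorem not_two_a₁_a₃_of_Δ_ne_zero (h : (W⁄k).Δ ≠ 0) :
    ¬((2 : k) = 0 ∧ (W⁄k).a₁ = 0 ∧ (W⁄k).a₃ = 0) := by
  rintro ⟨h2, h1, h3⟩
  apply h
  simp only [WeierstrassCurve.Δ, WeierstrassCurve.b₂, WeierstrassCurve.b₄, WeierstrassCurve.b₆,
    WeierstrassCurve.b₈, h1, h3]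
  linear_combination (-8 * (W⁄k).a₂ ^ 2 * (4 * (W⁄k).a₂ * (W⁄k).a₆ - (W⁄k).a₄ ^ 2)
    - 32 * (W⁄k).a₄ ^ 3 - 216 * (W⁄k).a₆ ^ 2 + 144 * (W⁄k).a₂ * (W⁄k).a₄ * (W⁄k).a₆) * h2

instance isElliptic_baseChange [W.IsElliptic] : (W⁄k).IsElliptic :=
  inferInstanceAs (W.map (algebraMap F k)).IsElliptic

theorem not_two_a₁_a₃_of_isElliptic [W.IsElliptic] :
    ¬((2 : k) = 0 ∧ (W⁄k).a₁ = 0 ∧ (W⁄k).a₃ = 0) :=
  not_two_a₁_a₃_of_Δ_ne_zero W k (W⁄k).isUnit_Δ.ne_zero

end Fermat.Agent.Lib.EC.FunctionField
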