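import Fermat.Agent.Lib.EC.FunctionField.Invol

/-!
# P-ELL WP-EC3 (part 3): odd points over the function field, Frobenius

`L = FF W k`.  The involution `invol` acts on `(W⁄L).Point`; the *odd points* are those `Q` with
`invol Q = -Q`.  They form a subgroup `oddPoints W k` containing the generic point; their
`x`-coordinates lie in `k(x)`: `xT Q : RatFunc k`, `zT Q : Fin 2 → RatFunc k` (projective
representative).  Any `F`-algebra endomorphism of `L` commuting with `invol` preserves the odd points,
in particular the `#F`-power Frobenius `frobF` when `F` is finite.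
-/

set_option autoImplicit false

noncomputable section

namespace Fermat.Agent.Lib.EC.FunctionField

open WeierstrassCurve Polynomial

variable {F : Type*} [Field F] (W : WeierstrassCurve F) (k : Type*) [Field k] [Algebra F k]

/-- The points of `W` over the function field of `W⁄k`. -/
abbrev PtL : Type _ := (W⁄(FF W k)).toAffine.Point

/-- The involution as an `F`-algebra endomorphism of the function field. -/
def involF : FF W k →ₐ[F] FF W k :=
  ((invol W k : FF W k ≃ₐ[k] FF W k) : FF W k →ₐ[k] FF W k).restrictScalars F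

theorem involF_apply (f : FF W k) : involF W k f = invol W k f := rfl

theorem negY_generic : (W⁄(FF W k)).toAffine.negY (xF W k) (yF W k) = negYF W k := by
  rw [Affine.negY, baseChange_a₁, baseChange_a₃, negYF]

/-- The `x`-coordinate of a point (`0` at infinity). -/
def xCoord : PtL W k → FF W k
  | 0 => 0
  | .some x _ _ => x

@[simp] theorem xCoord_zero : xCoord W k 0 = 0 := rfl

@[simp] theorem xCoord_some {x y : FF W k} (h : (W⁄(FF W k)).toAffine.Nonsingular x y) :
    xCoord W k (.some x y h) = x := rfl

/-- The `y`-coordinate of a point (`0` at infinity). -/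
def yCoord : PtL W k → FF W k
  | 0 => 0
  | .some _ y _ => y

@[simp] theorem yCoord_zero : yCoord W k 0 = 0 := rfl

@[simp] theorem yCoord_some {x y : FF W k} (h : (W⁄(FF W k)).toAffine.Nonsingular x y) :
    yCoord W k (.some x y h) = y := rfl

theorem xCoord_genericPoint : xCoord W k (genericPoint W k) = xF W k := rfl

theorem yCoord_genericPoint : yCoord W k (genericPoint W k) = yF W k := rfl

/-- The `x`-coordinate of an odd point, as a rational function (`0` at infinity; junk for points
that are not odd). -/
def xT (Q : PtL W k) : RatFunc k := Function.invFun (ratEmb W k) (xCoord W k Q)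

theorem xT_zero : xT W k 0 = 0 := by
  apply ratEmb_injective W k
  have h : ∃ r, ratEmb W k r = xCoord W k 0 := ⟨0, map_zero _⟩
  rw [xT, Function.invFun_eq h, map_zero]
  rfl

theorem xT_genericPoint : xT W k (genericPoint W k) = RatFunc.X := by
  apply ratEmb_injective W k
  have h : ∃ r, ratEmb W k r = xCoord W k (genericPoint W k) :=
    ⟨RatFunc.X, by rw [ratEmb_X, xCoord_genericPoint]⟩
  rw [xT, Function.invFun_eq h, ratEmb_X, xCoord_genericPoint]

/-- A projective representative over `k(x)` of the `x`-coordinate of an odd point. -/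
def zT : PtL W k → Fin 2 → RatFunc k
  | 0 => ![1, 0]
  | .some x y h => ![xT W k (.some x y h), 1]

@[simp] theorem zT_zero : zT W k 0 = ![1, 0] := rfl

theorem zT_some {x y : FF W k} (h : (W⁄(FF W k)).toAffine.Nonsingular x y) :
    zT W k (.some x y h) = ![xT W k (.some x y h), 1] := rfl

theorem zT_genericPoint : zT W k (genericPoint W k) = ![RatFunc.X, 1] := by
  rw [genericPoint, zT_some, ← genericPoint, xT_genericPoint]

theorem zT_ne_zero (Q : PtL W k) : zT W k Q ≠ 0 := by
  rcases Q with _ | ⟨x, y, h⟩
  · intro h0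
    have := congrFun h0 0
    simp [← Affine.Point.zero_def] at this
  · intro h0
    have := congrFun h0 1
    simp [zT_some] at this

variable [DecidableEq (FF W k)]

/-- The action of the involution on points. -/
def involPt : PtL W k →+ PtL W k := Affine.Point.map (W' := W) (involF W k)

/-- The subgroup of odd points: `invol Q = -Q`. -/
def oddPoints : AddSubgroup (PtL W k) where
  carrier := {Q | involPt W k Q = -Q}
  zero_mem' := by simp
  add_mem' := by
    intro a b ha hb
    change involPt W k a = -a at ha
    change involPt W k b = -b at hb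
    change involPt W k (a + b) = -(a + b)
    rw [map_add, ha, hb, neg_add]
  neg_mem' := by
    intro a ha
    change involPt W k a = -a at ha
    change involPt W k (-a) = - -a
    rw [map_neg, ha]

theorem mem_oddPoints {Q : PtL W k} : Q ∈ oddPoints W k ↔ involPt W k Q = -Q := Iff.rfl

theorem genericPoint_mem_oddPoints : genericPoint W k ∈ oddPoints W k := by
  rw [mem_oddPoints, genericPoint, involPt, Affine.Point.map_some, Affine.Point.neg_some]
  simp only [Affine.Point.some.injEq]
  exact ⟨by rw [involF_apply, invol_xF], by rw [involF_apply, invol_yF, negY_generic]⟩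

theorem xCoord_map (σ : FF W k →ₐ[F] FF W k) (Q : PtL W k) :
    xCoord W k (Affine.Point.map (W' := W) σ Q) = σ (xCoord W k Q) := by
  rcases Q with _ | ⟨x, y, h⟩
  · exact (map_zero σ).symm
  · rfl

theorem yCoord_map (σ : FF W k →ₐ[F] FF W k) (Q : PtL W k) :
    yCoord W k (Affine.Point.map (W' := W) σ Q) = σ (yCoord W k Q) := by
  rcases Q with _ | ⟨x, y, h⟩
  · exact (map_zero σ).symm
  · rfl

omit [DecidableEq (FF W k)] in
theorem xCoord_neg (Q : PtL W k) : xCoord W k (-Q) = xCoord W k Q := by
  rcases Q with _ | ⟨x, y, h⟩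
  · rfl
  · rfl

theorem invol_xCoord_of_mem {Q : PtL W k} (hQ : Q ∈ oddPoints W k) :
    invol W k (xCoord W k Q) = xCoord W k Q := by
  rw [mem_oddPoints] at hQ
  have h := congrArg (xCoord W k) hQ
  rw [involPt, xCoord_map, involF_apply, xCoord_neg] at h
  exact h

theorem ratEmb_xT (hW : ¬((2 : k) = 0 ∧ (W⁄k).a₁ = 0 ∧ (W⁄k).a₃ = 0)) {Q : PtL W k}
    (hQ : Q ∈ oddPoints W k) : ratEmb W k (xT W k Q) = xCoord W k Q :=
  Function.invFun_eq ((invol_eq_self_iff W k hW _).mp (invol_xCoord_of_mem W k hQ))

theorem xT_eq_iff (hW : ¬((2 : k) = 0 ∧ (W⁄k).a₁ = 0 ∧ (W⁄k).a₃ = 0)) {Q : PtL W k}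
    (hQ : Q ∈ oddPoints W k) (r : RatFunc k) : xT W k Q = r ↔ ratEmb W k r = xCoord W k Q := by
  constructor
  · rintro rfl
    exact ratEmb_xT W k hW hQ
  · intro h
    apply ratEmb_injective W k
    rw [ratEmb_xT W k hW hQ, h]

/-- `xRep Q = ratEmb ∘ zT Q` for odd `Q`. -/
theorem xRep_eq (hW : ¬((2 : k) = 0 ∧ (W⁄k).a₁ = 0 ∧ (W⁄k).a₃ = 0)) {Q : PtL W k}
    (hQ : Q ∈ oddPoints W k) : Affine.Point.xRep Q = ratEmb W k ∘ zT W k Q := by
  rcases Q with _ | ⟨x, y, h⟩
  · ext i
    fin_cases i <;> simp [← Affine.Point.zero_def]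
  · have hx := ratEmb_xT W k hW hQ
    rw [xCoord_some] at hx
    ext i
    fin_cases i <;> simp [zT_some, hx]

/-! ### Endomorphisms commuting with the involution -/

theorem map_mem_oddPoints (σ : FF W k →ₐ[F] FF W k)
    (hσ : ∀ f, σ (invol W k f) = invol W k (σ f)) {Q : PtL W k} (hQ : Q ∈ oddPoints W k) :
    Affine.Point.map (W' := W) σ Q ∈ oddPoints W k := by
  rw [mem_oddPoints] at hQ ⊢
  have hcomm : (involF W k).comp σ = σ.comp (involF W k) :=
    AlgHom.ext fun f => by simp [involF_apply, hσ]
  rw [involPt, Affine.Point.map_map, hcomm, ← Affine.Point.map_map, ← involPt, hQ, map_neg]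

theorem ratEmb_xT_map (hW : ¬((2 : k) = 0 ∧ (W⁄k).a₁ = 0 ∧ (W⁄k).a₃ = 0))
    (σ : FF W k →ₐ[F] FF W k)
    (hσ : ∀ f, σ (invol W k f) = invol W k (σ f)) {Q : PtL W k} (hQ : Q ∈ oddPoints W k) :
    ratEmb W k (xT W k (Affine.Point.map (W' := W) σ Q)) = σ (ratEmb W k (xT W k Q)) := by
  rw [ratEmb_xT W k hW (map_mem_oddPoints W k σ hσ hQ), xCoord_map, ratEmb_xT W k hW hQ]

/-! ### Frobenius -/

section Frobenius

variable [Fintype F]

/-- The `#F`-power Frobenius of the function field. -/
def frobF : FF W k →ₐ[F] FF W k := FiniteField.frobeniusAlgHom F (FF W k)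

omit [DecidableEq (FF W k)] in
theorem frobF_apply (f : FF W k) : frobF W k f = f ^ Fintype.card F := rfl

/-- Frobenius on points over the function field. -/
def frobPt : PtL W k →+ PtL W k := Affine.Point.map (W' := W) (frobF W k)

omit [DecidableEq (FF W k)] in
theorem frobF_invol (f : FF W k) : frobF W k (invol W k f) = invol W k (frobF W k f) := by
  simp [frobF_apply]

theorem frobPt_mem_oddPoints {Q : PtL W k} (hQ : Q ∈ oddPoints W k) :
    frobPt W k Q ∈ oddPoints W k :=
  map_mem_oddPoints W k (frobF W k) (frobF_invol W k) hQ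

theorem xCoord_frobPt (Q : PtL W k) :
    xCoord W k (frobPt W k Q) = xCoord W k Q ^ Fintype.card F := by
  rw [frobPt, xCoord_map, frobF_apply]

theorem yCoord_frobPt (Q : PtL W k) :
    yCoord W k (frobPt W k Q) = yCoord W k Q ^ Fintype.card F := by
  rw [frobPt, yCoord_map, frobF_apply]

theorem xT_frobPt (hW : ¬((2 : k) = 0 ∧ (W⁄k).a₁ = 0 ∧ (W⁄k).a₃ = 0)) {Q : PtL W k}
    (hQ : Q ∈ oddPoints W k) : xT W k (frobPt W k Q) = xT W k Q ^ Fintype.card F := by
  apply ratEmb_injective W k
  rw [frobPt, ratEmb_xT_map W k hW (frobF W k) (frobF_invol W k) hQ, frobF_apply, map_pow]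

theorem frobPt_eq_zero_iff (Q : PtL W k) : frobPt W k Q = 0 ↔ Q = 0 := by
  rw [frobPt, ← map_zero (Affine.Point.map (W' := W) (frobF W k))]
  exact (Affine.Point.map_injective (W' := W) (frobF W k)).eq_iff

theorem zT_frobPt (hW : ¬((2 : k) = 0 ∧ (W⁄k).a₁ = 0 ∧ (W⁄k).a₃ = 0)) {Q : PtL W k}
    (hQ : Q ∈ oddPoints W k) (i : Fin 2) :
    zT W k (frobPt W k Q) i = zT W k Q i ^ Fintype.card F := by
  rcases Q with _ | ⟨x, y, h⟩
  · have h0 : frobPt W k (Affine.Point.zero) = 0 := map_zero _
    rw [h0, ← Affine.Point.zero_def, zT_zero]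
    fin_cases i <;> simp [Fintype.card_ne_zero]
  · have h1 := xT_frobPt W k hW hQ
    rw [frobPt, Affine.Point.map_some] at h1 ⊢
    rw [zT_some, zT_some]
    fin_cases i
    · simpa using h1
    · simp

end Frobenius


/-! ### Constant points -/

section Const

variable [DecidableEq k]

/-- Constant points: the base change `(W⁄k).Point → (W⁄L).Point`. -/
def constPt : (W⁄k).toAffine.Point →+ PtL W k := Affine.Point.baseChange (W' := W) k (FF W k)

theorem constPt_injective : Function.Injective (constPt W k) :=
  Affine.Point.map_injective (W' := W) _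

theorem xCoord_constPt_some {a b : k} (h : (W⁄k).toAffine.Nonsingular a b) :
    xCoord W k (constPt W k (.some a b h)) = algebraMap k (FF W k) a := rfl

theorem yCoord_constPt_some {a b : k} (h : (W⁄k).toAffine.Nonsingular a b) :
    yCoord W k (constPt W k (.some a b h)) = algebraMap k (FF W k) b := rfl

/-- Constant points are fixed by the involution. -/
theorem involPt_constPt (P : (W⁄k).toAffine.Point) :
    involPt W k (constPt W k P) = constPt W k P := by
  rcases P with _ | ⟨a, b, h⟩
  · rfl
  · simp only [involPt, constPt, Affine.Point.baseChange, Affine.Point.map_some,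
      Affine.Point.some.injEq]
    exact ⟨by simp [involF_apply], by simp [involF_apply]⟩

/-- Any `k`-algebra endomorphism of the function field fixes the constant points. -/
theorem map_constPt (σ : FF W k →ₐ[k] FF W k) (P : (W⁄k).toAffine.Point) :
    Affine.Point.map (W' := W) (σ.restrictScalars F) (constPt W k P) = constPt W k P := by
  rcases P with _ | ⟨a, b, h⟩
  · rfl
  · simp only [constPt, Affine.Point.baseChange, Affine.Point.map_some,
      Affine.Point.some.injEq]
    exact ⟨by simp, by simp⟩

variable [Fintype F]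

/-- The `#F`-power Frobenius of `k`. -/
def frobk : k →ₐ[F] k := FiniteField.frobeniusAlgHom F k

omit [DecidableEq k] in
theorem frobk_apply (a : k) : frobk (F := F) k a = a ^ Fintype.card F := rfl

/-- Frobenius on `k`-points. -/
def frobPtk : (W⁄k).toAffine.Point →+ (W⁄k).toAffine.Point :=
  Affine.Point.map (W' := W) (frobk (F := F) k)

theorem frobPt_constPt (P : (W⁄k).toAffine.Point) :
    frobPt W k (constPt W k P) = constPt W k (frobPtk W k P) := by
  rcases P with _ | ⟨a, b, h⟩
  · rfl
  · simp only [frobPt, frobPtk, constPt, Affine.Point.baseChange, Affine.Point.map_some,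
      Affine.Point.some.injEq]
    exact ⟨by simp [frobF_apply, frobk_apply], by simp [frobF_apply, frobk_apply]⟩

end Const

end Fermat.Agent.Lib.EC.FunctionField
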