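import Fermat.Agent.Lib.EC.FunctionField.OddPoints

/-!
# P-ELL WP-EC3 (part 4): substitution endomorphisms of the function field

For an affine point `Q = (u, v)` of `W` over `L = FF W k` with `u` transcendental over `k`, the
substitution `x ↦ u, y ↦ v` is an (injective) `k`-algebra endomorphism `subst` of `L`, it sends the
generic point to `Q`, commutes with Frobenius, commutes with the involution if `Q` is odd, and
restricts on `k(x)` to the substitution `X ↦ xT Q`.
-/

set_option autoImplicit false

noncomputable section

namespace Fermat.Agent.Lib.EC.FunctionField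

open WeierstrassCurve Polynomial

variable {F : Type*} [Field F] (W : WeierstrassCurve F) (k : Type*) [Field k] [Algebra F k]

/-- The Weierstrass equation over the function field, with coefficients from `k`. -/
theorem equation_iff_FF (u v : FF W k) :
    (W⁄(FF W k)).toAffine.Equation u v ↔
      v ^ 2 + algebraMap k (FF W k) (W⁄k).a₁ * u * v + algebraMap k (FF W k) (W⁄k).a₃ * v =
        u ^ 3 + algebraMap k (FF W k) (W⁄k).a₂ * u ^ 2 + algebraMap k (FF W k) (W⁄k).a₄ * u
          + algebraMap k (FF W k) (W⁄k).a₆ := by
  rw [Affine.equation_iff, baseChange_a₁, baseChange_a₂, baseChange_a₃, baseChange_a₄,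
    baseChange_a₆]

/-- Two `k`-algebra maps out of the function field into a field agree if they agree on `x, y`. -/
theorem FF_algHom_ext {A : Type*} [Field A] [Algebra k A] {f g : FF W k →ₐ[k] A}
    (hx : f (xF W k) = g (xF W k)) (hy : f (yF W k) = g (yF W k)) : f = g := by
  have h : f.comp (IsScalarTower.toAlgHom k (CR W k) (FF W k)) =
      g.comp (IsScalarTower.toAlgHom k (CR W k) (FF W k)) :=
    CR_algHom_ext W k hx hy
  refine AlgHom.ext fun z => ?_
  obtain ⟨a, b, _, rfl⟩ := IsFractionRing.div_surjective (CR W k) z
  have h1 := fun c => AlgHom.congr_fun h c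
  simp only [AlgHom.comp_apply, IsScalarTower.coe_toAlgHom'] at h1
  rw [map_div₀, map_div₀, h1, h1]

section subst

variable {u v : FF W k} (h : (W⁄(FF W k)).toAffine.Equation u v)

/-- The substitution `x ↦ u, y ↦ v` on the coordinate ring. -/
def substCR : CR W k →ₐ[k] FF W k := liftCR W k u v ((equation_iff_FF W k u v).mp h)

theorem substCR_xC : substCR W k h (xC W k) = u := liftCR_xC W k _ _ _

theorem substCR_yC : substCR W k h (yC W k) = v := liftCR_yC W k _ _ _

theorem substCR_polyC (p : k[X]) : substCR W k h (polyC W k p) = aeval u p :=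
  liftCR_polyC W k _ _ _ p

theorem substCR_injective (hu : Transcendental k u) : Function.Injective (substCR W k h) := by
  rw [injective_iff_map_eq_zero]
  intro a ha
  by_contra ha0
  obtain ⟨n, hn⟩ := exists_mul_involCHom W k a
  have hia0 : involCHom W k a ≠ 0 := fun h0 =>
    ha0 (involCHom_injective W k (by rw [h0, map_zero]))
  have hn0 : n ≠ 0 := by
    rintro rfl
    rw [map_zero] at hn
    exact (mul_ne_zero ha0 hia0) hn
  have h1 : aeval u n = 0 := by
    rw [← substCR_polyC W k h, ← hn, map_mul, ha, zero_mul]
  exact hn0 (transcendental_iff.mp hu n h1)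

variable (hu : Transcendental k u)

/-- The substitution endomorphism `x ↦ u, y ↦ v` of the function field. -/
def subst : FF W k →ₐ[k] FF W k := IsFractionRing.liftAlgHom (substCR_injective W k h hu)

theorem subst_algebraMap (a : CR W k) :
    subst W k h hu (algebraMap (CR W k) (FF W k) a) = substCR W k h a := by
  simp [subst, IsFractionRing.liftAlgHom_apply]

theorem subst_xF : subst W k h hu (xF W k) = u := by
  rw [xF, subst_algebraMap, substCR_xC]

theorem subst_yF : subst W k h hu (yF W k) = v := by
  rw [yF, subst_algebraMap, substCR_yC]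

theorem subst_polyEmb (p : k[X]) : subst W k h hu (polyEmb W k p) = aeval u p := by
  rw [polyEmb_apply, subst_algebraMap, substCR_polyC]

theorem subst_injective : Function.Injective (subst W k h hu) := (subst W k h hu).injective

theorem subst_negYF : subst W k h hu (negYF W k) =
    -v - algebraMap k (FF W k) (W⁄k).a₁ * u - algebraMap k (FF W k) (W⁄k).a₃ := by
  simp only [negYF, map_sub, map_neg, map_mul, AlgHom.commutes, subst_xF, subst_yF]

/-- `subst` as an `F`-algebra map. -/
def substF : FF W k →ₐ[F] FF W k := (subst W k h hu).restrictScalars F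

theorem substF_apply (f : FF W k) : substF W k h hu f = subst W k h hu f := rfl

/-- `subst` commutes with the involution iff `(u, v)` is odd. -/
theorem subst_invol (hiu : invol W k u = u)
    (hiv : invol W k v =
      -v - algebraMap k (FF W k) (W⁄k).a₁ * u - algebraMap k (FF W k) (W⁄k).a₃)
    (f : FF W k) : subst W k h hu (invol W k f) = invol W k (subst W k h hu f) := by
  have key : (subst W k h hu).comp ((invol W k : FF W k ≃ₐ[k] FF W k) : FF W k →ₐ[k] FF W k) =
      ((invol W k : FF W k ≃ₐ[k] FF W k) : FF W k →ₐ[k] FF W k).comp (subst W k h hu) := by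
    apply FF_algHom_ext W k
    · show subst W k h hu (invol W k (xF W k)) = invol W k (subst W k h hu (xF W k))
      rw [invol_xF, subst_xF, hiu]
    · show subst W k h hu (invol W k (yF W k)) = invol W k (subst W k h hu (yF W k))
      rw [invol_yF, subst_yF, hiv, subst_negYF]
  exact AlgHom.congr_fun key f

/-- `subst` on `k(x)`: substitution into a rational function. -/
theorem subst_ratEmb_algebraMap_div (p q : k[X]) :
    subst W k h hu (ratEmb W k (algebraMap k[X] (RatFunc k) p / algebraMap k[X] (RatFunc k) q)) =
      aeval u p / aeval u q := by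
  rw [map_div₀, map_div₀, ratEmb_algebraMap, ratEmb_algebraMap, subst_polyEmb, subst_polyEmb]

section Frobenius

variable [Fintype F]

theorem subst_frobF (f : FF W k) :
    subst W k h hu (frobF W k f) = frobF W k (subst W k h hu f) := by
  simp [frobF_apply]

end Frobenius

end subst

/-! ### Substitution in `k(x)` -/

section ratSubst

variable {k}
variable {r : RatFunc k} (hr : Transcendental k r)

/-- The `k`-algebra endomorphism `X ↦ r` of `k(X)`, for `r` non-constant. -/
def ratSubst : RatFunc k →ₐ[k] RatFunc k :=
  IsFractionRing.liftAlgHom (g := (aeval r : k[X] →ₐ[k] RatFunc k))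
    (transcendental_iff_injective.mp hr)

theorem ratSubst_algebraMap (p : k[X]) :
    ratSubst hr (algebraMap k[X] (RatFunc k) p) = aeval r p := by
  simp [ratSubst, IsFractionRing.liftAlgHom_apply]

theorem ratSubst_X : ratSubst hr RatFunc.X = r := by
  rw [← RatFunc.algebraMap_X, ratSubst_algebraMap, aeval_X]

theorem ratSubst_injective : Function.Injective (ratSubst hr) := (ratSubst hr).injective

end ratSubst

theorem transcendental_ratEmb {r : RatFunc k} (hr : Transcendental k r) :
    Transcendental k (ratEmb W k r) := fun halg =>
  hr ((isAlgebraic_algHom_iff (ratEmb W k) (ratEmb_injective W k)).mp halg)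

/-- On `k(x)`, `subst` is the substitution `X ↦ r` when `u = ratEmb r`. -/
theorem subst_ratEmb {r : RatFunc k} (hr : Transcendental k r) {v : FF W k}
    (h : (W⁄(FF W k)).toAffine.Equation (ratEmb W k r) v) (R : RatFunc k) :
    subst W k h (transcendental_ratEmb W k hr) (ratEmb W k R) = ratEmb W k (ratSubst hr R) := by
  induction R using RatFunc.induction_on with
  | f p q hq =>
    rw [subst_ratEmb_algebraMap_div, map_div₀, map_div₀, ratSubst_algebraMap,
      ratSubst_algebraMap, ← Polynomial.aeval_algHom_apply, ← Polynomial.aeval_algHom_apply]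

/-- Version of `subst_ratEmb` with a propositional equality `ratEmb r = u`. -/
theorem subst_ratEmb' {u v : FF W k} (h : (W⁄(FF W k)).toAffine.Equation u v)
    (hu : Transcendental k u) {r : RatFunc k} (hr : Transcendental k r)
    (hur : ratEmb W k r = u) (R : RatFunc k) :
    subst W k h hu (ratEmb W k R) = ratEmb W k (ratSubst hr R) := by
  subst hur
  exact subst_ratEmb W k hr h R

/-! ### Action on points -/

section points

variable [DecidableEq (FF W k)]

variable {u v : FF W k} (hns : (W⁄(FF W k)).toAffine.Nonsingular u v) (hu : Transcendental k u)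

/-- `subst` sends the generic point to `(u, v)`. -/
theorem map_substF_genericPoint :
    Affine.Point.map (W' := W) (substF W k hns.1 hu) (genericPoint W k) = .some u v hns := by
  rw [genericPoint, Affine.Point.map_some]
  simp only [Affine.Point.some.injEq]
  exact ⟨subst_xF W k hns.1 hu, subst_yF W k hns.1 hu⟩

/-- If `(u, v)` is odd, `subst` commutes with the involution. -/
theorem subst_invol_of_mem (hQ : Affine.Point.some u v hns ∈ oddPoints W k) (f : FF W k) :
    subst W k hns.1 hu (invol W k f) = invol W k (subst W k hns.1 hu f) := by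
  rw [mem_oddPoints, involPt, Affine.Point.map_some, Affine.Point.neg_some] at hQ
  simp only [Affine.Point.some.injEq, involF_apply] at hQ
  apply subst_invol W k hns.1 hu hQ.1
  rw [hQ.2, Affine.negY, baseChange_a₁, baseChange_a₃]

/-- If `(u, v)` is odd, `subst` preserves odd points. -/
theorem map_substF_mem_oddPoints (hQ : Affine.Point.some u v hns ∈ oddPoints W k)
    {P : PtL W k} (hP : P ∈ oddPoints W k) :
    Affine.Point.map (W' := W) (substF W k hns.1 hu) P ∈ oddPoints W k :=
  map_mem_oddPoints W k (substF W k hns.1 hu) (subst_invol_of_mem W k hns hu hQ) hP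

section Frobenius

variable [Fintype F]

/-- `subst` commutes with Frobenius on points. -/
theorem map_substF_frobPt (P : PtL W k) :
    Affine.Point.map (W' := W) (substF W k hns.1 hu) (frobPt W k P) =
      frobPt W k (Affine.Point.map (W' := W) (substF W k hns.1 hu) P) := by
  have hcomm : (substF W k hns.1 hu).comp (frobF W k) = (frobF W k).comp (substF W k hns.1 hu) :=
    AlgHom.ext fun f => by simp [substF_apply, frobF_apply]
  rw [frobPt, Affine.Point.map_map, hcomm, ← Affine.Point.map_map]

end Frobenius

/-- Any `F`-algebra endomorphism of the function field commutes with Frobenius on points. -/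
theorem map_frobPt_comm [Fintype F] (σ : FF W k →ₐ[F] FF W k) (P : PtL W k) :
    Affine.Point.map (W' := W) σ (frobPt W k P) =
      frobPt W k (Affine.Point.map (W' := W) σ P) := by
  have hcomm : σ.comp (frobF W k) = (frobF W k).comp σ :=
    AlgHom.ext fun f => by simp [frobF_apply]
  rw [frobPt, Affine.Point.map_map, hcomm, ← Affine.Point.map_map]

/-- The `x`-coordinate of an odd point with non-constant `xT` is transcendental over `k`. -/
theorem transcendental_xCoord (hW : ¬((2 : k) = 0 ∧ (W⁄k).a₁ = 0 ∧ (W⁄k).a₃ = 0))
    {Q : PtL W k} (hQ : Q ∈ oddPoints W k) (hr : Transcendental k (xT W k Q)) :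
    Transcendental k (xCoord W k Q) := by
  rw [← ratEmb_xT W k hW hQ]
  exact transcendental_ratEmb W k hr

/-- `xT` of the image of an odd point under `subst` is the composite rational function. -/
theorem xT_map_substF (hW : ¬((2 : k) = 0 ∧ (W⁄k).a₁ = 0 ∧ (W⁄k).a₃ = 0))
    (hQ : Affine.Point.some u v hns ∈ oddPoints W k)
    (hr : Transcendental k (xT W k (Affine.Point.some u v hns)))
    {P : PtL W k} (hP : P ∈ oddPoints W k) :
    xT W k (Affine.Point.map (W' := W) (substF W k hns.1 hu) P) = ratSubst hr (xT W k P) := by
  apply ratEmb_injective W k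
  rw [ratEmb_xT_map W k hW _ (subst_invol_of_mem W k hns hu hQ) hP, substF_apply,
    subst_ratEmb' W k hns.1 hu hr (ratEmb_xT W k hW hQ)]

/-- Packaged form: for an odd point `Q` whose `x`-coordinate is a non-constant rational function
there is a `k`-algebra endomorphism `σ` of the function field sending the generic point to `Q`,
commuting with the involution, and acting on `k(x)` as the substitution `X ↦ xT Q`. -/
theorem exists_subst (hW : ¬((2 : k) = 0 ∧ (W⁄k).a₁ = 0 ∧ (W⁄k).a₃ = 0))
    {Q : PtL W k} (hQ : Q ∈ oddPoints W k) (hr : Transcendental k (xT W k Q)) :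
    ∃ σ : FF W k →ₐ[k] FF W k,
      Affine.Point.map (W' := W) (σ.restrictScalars F) (genericPoint W k) = Q ∧
      (∀ f, σ (invol W k f) = invol W k (σ f)) ∧
      (∀ R : RatFunc k, σ (ratEmb W k R) = ratEmb W k (ratSubst hr R)) ∧
      σ (xF W k) = xCoord W k Q ∧ σ (yF W k) = yCoord W k Q ∧
      (∀ P ∈ oddPoints W k, Affine.Point.map (W' := W) (σ.restrictScalars F) P ∈ oddPoints W k) ∧
      (∀ P ∈ oddPoints W k,
        xT W k (Affine.Point.map (W' := W) (σ.restrictScalars F) P) = ratSubst hr (xT W k P)) := by
  have hu := transcendental_xCoord W k hW hQ hr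
  rcases Q with _ | ⟨u, v, hns⟩
  · exfalso
    have h0 : xT W k (Affine.Point.zero) = 0 := xT_zero W k
    rw [h0] at hr
    exact hr (isAlgebraic_zero)
  · rw [xCoord_some] at hu
    refine ⟨subst W k hns.1 hu, map_substF_genericPoint W k hns hu,
      subst_invol_of_mem W k hns hu hQ,
      fun R => subst_ratEmb' W k hns.1 hu hr (ratEmb_xT W k hW hQ) R,
      subst_xF W k hns.1 hu, subst_yF W k hns.1 hu,
      fun P hP => map_substF_mem_oddPoints W k hns hu hQ hP,
      fun P hP => xT_map_substF W k hns hu hW hQ hr hP⟩

end points

end Fermat.Agent.Lib.EC.FunctionField
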