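import Fermat.Agent.Lib.EC.FunctionField.Concrete

/-!
# P-ELL WP-EC3 (part 6): an endomorphism killing the generic point up to a constant is zero

`k` algebraically closed.  Let `ψL` be an additive endomorphism of `(W⁄L).Point`, `L = FF W k`,
compatible with an additive endomorphism `ψk` of `(W⁄k).Point` on constant points, and commuting
with all `k`-algebra endomorphisms of `L` (e.g. an integer polynomial in Frobenius).  If
`ψL genericPoint` is `0` or has constant `x`-coordinate (i.e. has height `0`), then `ψk = 0`.

The proof does not use places: for `P₀ ∈ W(k)` the point `S = constPt P₀ + genericPoint` has a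
transcendental `x`-coordinate, so there is a substitution `s` with `s genericPoint = S`; applying
`s` to the constant point `ψL genericPoint` gives `ψL S = ψL genericPoint`, hence
`ψL (constPt P₀) = 0`.
-/

set_option autoImplicit false

noncomputable section

namespace Fermat.Agent.Lib.EC.FunctionField

open WeierstrassCurve Polynomial

variable {F : Type*} [Field F] (W : WeierstrassCurve F) (k : Type*) [Field k] [Algebra F k]

section

variable [DecidableEq k] [DecidableEq (FF W k)]

theorem constPt_some {a b : k} (h : (W⁄k).toAffine.Nonsingular a b) :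
    constPt W k (.some a b h) = .some (algebraMap k (FF W k) a) (algebraMap k (FF W k) b)
      ((Affine.baseChange_nonsingular (W := W.toAffine)
        (f := Algebra.ofId k (FF W k)) (Algebra.ofId k (FF W k)).injective a b).mpr h) := rfl

/-- The generic point is not a constant point. -/
theorem genericPoint_ne_constPt (P₀ : (W⁄k).toAffine.Point) : genericPoint W k ≠ constPt W k P₀ := by
  intro h
  rcases P₀ with _ | ⟨a, b, hab⟩
  · have h0 : constPt W k (Affine.Point.zero) = 0 := map_zero _
    rw [h0] at h
    exact Affine.Point.some_ne_zero _ h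
  · have hx := congrArg (xCoord W k) h
    rw [xCoord_genericPoint, xCoord_constPt_some] at hx
    exact transcendental_xF W k (hx ▸ isAlgebraic_algebraMap a)

variable [IsAlgClosed k]

/-- Over an algebraically closed `k`, a point with constant `x`-coordinate is a constant point. -/
theorem exists_constPt_eq_of_x_const {c : k} {v : FF W k}
    (h : (W⁄(FF W k)).toAffine.Nonsingular (algebraMap k (FF W k) c) v) :
    ∃ P₀ : (W⁄k).toAffine.Point, constPt W k P₀ = .some _ v h := by
  -- `v` is integral over `k`
  have heq := (equation_iff_FF W k _ v).mp h.1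
  have hint : IsIntegral k v := by
    refine ⟨X ^ 2 + C ((W⁄k).a₁ * c + (W⁄k).a₃) * X
      - C (c ^ 3 + (W⁄k).a₂ * c ^ 2 + (W⁄k).a₄ * c + (W⁄k).a₆), ?_, ?_⟩
    · have h2 : (X ^ 2 + C ((W⁄k).a₁ * c + (W⁄k).a₃) * X
          - C (c ^ 3 + (W⁄k).a₂ * c ^ 2 + (W⁄k).a₄ * c + (W⁄k).a₆) : k[X]) =
          X ^ 2 + (C ((W⁄k).a₁ * c + (W⁄k).a₃) * X
          - C (c ^ 3 + (W⁄k).a₂ * c ^ 2 + (W⁄k).a₄ * c + (W⁄k).a₆)) := by ring
      rw [h2]
      apply monic_X_pow_add
      refine lt_of_le_of_lt (degree_sub_le _ _) (max_lt ?_ ?_)
      · refine lt_of_le_of_lt (degree_C_mul_X_le _) (by norm_num)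
      · exact lt_of_le_of_lt degree_C_le (by norm_num)
    · simp only [eval₂_sub, eval₂_add, eval₂_mul, eval₂_pow, eval₂_X, eval₂_C, map_add, map_mul,
        map_pow]
      linear_combination heq
  obtain ⟨d, rfl⟩ := Places.mem_range_of_isIntegral hint
  have h' : (W⁄k).toAffine.Nonsingular c d :=
    (Affine.baseChange_nonsingular (W := W.toAffine)
      (f := Algebra.ofId k (FF W k)) (Algebra.ofId k (FF W k)).injective c d).mp h
  exact ⟨.some c d h', rfl⟩

/-- A point that is zero or has constant `x`-coordinate is a constant point. -/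
theorem exists_constPt_eq {R : PtL W k}
    (hR : R = 0 ∨ ∃ c : k, xCoord W k R = algebraMap k (FF W k) c) :
    ∃ R₀ : (W⁄k).toAffine.Point, constPt W k R₀ = R := by
  rcases R with _ | ⟨u, v, h⟩
  · exact ⟨0, map_zero _⟩
  · rcases hR with hR | ⟨c, hc⟩
    · exact absurd hR (Affine.Point.some_ne_zero _)
    · rw [xCoord_some] at hc
      subst hc
      exact exists_constPt_eq_of_x_const W k h

/-- Translates of the generic point by constant points are affine with transcendental `x`. -/
theorem exists_some_eq_constPt_add_genericPoint (P₀ : (W⁄k).toAffine.Point) :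
    ∃ (u v : FF W k) (h : (W⁄(FF W k)).toAffine.Nonsingular u v),
      constPt W k P₀ + genericPoint W k = .some u v h ∧ Transcendental k u := by
  rcases hS : constPt W k P₀ + genericPoint W k with _ | ⟨u, v, h⟩
  · exfalso
    have h0 : constPt W k P₀ + genericPoint W k = 0 := hS
    have : genericPoint W k = constPt W k (-P₀) := by
      rw [map_neg]
      exact (neg_eq_of_add_eq_zero_right h0).symm ▸ rfl
    exact genericPoint_ne_constPt W k _ this
  · refine ⟨u, v, h, rfl, ?_⟩
    apply Places.transcendental_of_notMem_range
    rintro ⟨c, rfl⟩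
    obtain ⟨S₀, hS₀⟩ := exists_constPt_eq_of_x_const W k h
    have : genericPoint W k = constPt W k (S₀ - P₀) := by
      rw [map_sub, hS₀, ← hS]
      abel
    exact genericPoint_ne_constPt W k _ this

/-- **Vanishing criterion.**  If `ψL` (on points over the function field) is compatible with `ψk`
on constant points, commutes with all `k`-algebra endomorphisms of the function field, and sends
the generic point to a point that is `0` or has constant `x`-coordinate, then `ψk = 0`. -/
theorem eq_zero_of_generic_const (ψL : PtL W k →+ PtL W k)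
    (ψk : (W⁄k).toAffine.Point →+ (W⁄k).toAffine.Point)
    (hconst : ∀ P₀, ψL (constPt W k P₀) = constPt W k (ψk P₀))
    (hcomm : ∀ (s : FF W k →ₐ[k] FF W k) (P : PtL W k),
      ψL (Affine.Point.map (W' := W) (s.restrictScalars F) P) =
        Affine.Point.map (W' := W) (s.restrictScalars F) (ψL P))
    (hgen : ψL (genericPoint W k) = 0 ∨
      ∃ c : k, xCoord W k (ψL (genericPoint W k)) = algebraMap k (FF W k) c)
    (P₀ : (W⁄k).toAffine.Point) : ψk P₀ = 0 := by
  obtain ⟨R₀, hR₀⟩ := exists_constPt_eq W k hgen
  obtain ⟨u, v, h, hS, hu⟩ := exists_some_eq_constPt_add_genericPoint W k P₀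
  have h1 : Affine.Point.map (W' := W) ((subst W k h.1 hu).restrictScalars F) (genericPoint W k) =
      constPt W k P₀ + genericPoint W k := by
    rw [hS]
    exact map_substF_genericPoint W k h hu
  have h2 := hcomm (subst W k h.1 hu) (genericPoint W k)
  rw [h1, map_add, hconst, ← hR₀, map_constPt] at h2
  apply constPt_injective W k
  rw [map_zero]
  exact add_eq_right.mp h2

/-- **Vanishing criterion for quadratic polynomials in Frobenius.**  If
`c₂ Φ² + c₁ Φ + c₀` sends the generic point to `0` or to a point with constant `x`-coordinate,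
then `c₂ φ² + c₁ φ + c₀ = 0` on `W(k)`. -/
theorem frob_quadratic_eq_zero [Fintype F] (c₀ c₁ c₂ : ℤ)
    (hgen : c₂ • frobPt W k (frobPt W k (genericPoint W k)) + c₁ • frobPt W k (genericPoint W k)
        + c₀ • genericPoint W k = 0 ∨
      ∃ c : k, xCoord W k (c₂ • frobPt W k (frobPt W k (genericPoint W k))
        + c₁ • frobPt W k (genericPoint W k) + c₀ • genericPoint W k) = algebraMap k (FF W k) c)
    (P₀ : (W⁄k).toAffine.Point) :
    c₂ • frobPtk W k (frobPtk W k P₀) + c₁ • frobPtk W k P₀ + c₀ • P₀ = 0 := by
  let ψL : PtL W k →+ PtL W k := AddMonoidHom.mk'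
    (fun P => c₂ • frobPt W k (frobPt W k P) + c₁ • frobPt W k P + c₀ • P)
    (by intro a b; simp only [map_add, zsmul_add]; abel)
  let ψk : (W⁄k).toAffine.Point →+ (W⁄k).toAffine.Point := AddMonoidHom.mk'
    (fun P => c₂ • frobPtk W k (frobPtk W k P) + c₁ • frobPtk W k P + c₀ • P)
    (by intro a b; simp only [map_add, zsmul_add]; abel)
  exact eq_zero_of_generic_const W k ψL ψk
    (fun P => by
      show c₂ • frobPt W k (frobPt W k (constPt W k P)) + c₁ • frobPt W k (constPt W k P)
          + c₀ • constPt W k P =
        constPt W k (c₂ • frobPtk W k (frobPtk W k P) + c₁ • frobPtk W k P + c₀ • P)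
      rw [frobPt_constPt, frobPt_constPt, map_add, map_add, map_zsmul, map_zsmul, map_zsmul])
    (fun s P => by
      show c₂ • frobPt W k (frobPt W k (Affine.Point.map (W' := W) (s.restrictScalars F) P))
          + c₁ • frobPt W k (Affine.Point.map (W' := W) (s.restrictScalars F) P)
          + c₀ • Affine.Point.map (W' := W) (s.restrictScalars F) P =
        Affine.Point.map (W' := W) (s.restrictScalars F)
          (c₂ • frobPt W k (frobPt W k P) + c₁ • frobPt W k P + c₀ • P)
      rw [map_add, map_add, map_zsmul, map_zsmul, map_zsmul, map_frobPt_comm, map_frobPt_comm])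
    hgen P₀

end

end Fermat.Agent.Lib.EC.FunctionField
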